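import Fermat.Agent.Modular.Kummer.KummerEquiv
import Fermat.Agent.Curve.ConstExt.TorsionDescent
import Fermat.Agent.Curve.Descent.LaurentExt
import Fermat.Agent.Curve.Riemann

/-!
`J₀(N)[n] ≅ Hom_cusp(Γ₀(N), μₙ)`: descent from `ℂ` to `ℚ̄`.
-/

set_option autoImplicit false

noncomputable section

open CongruenceSubgroup ModularCurve AlgebraicCurve
open scoped MatrixGroups

namespace FermatLib.Modular.Kummer

attribute [local instance] Curve.qbarAlgebraComplex

variable (N : ℕ) [NeZero N]

instance isFunctionFieldOne_barField :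
    Curve.IsFunctionFieldOne (AlgebraicClosure ℚ) (modularFunctionFieldBar N) :=
  isFunctionFieldOne_modularFunctionFieldOver (L := AlgebraicClosure ℚ) N

instance isFunctionFieldOne_cxField : Curve.IsFunctionFieldOne ℂ (cxField N) :=
  isFunctionFieldOne_modularFunctionFieldOver (L := ℂ) N

omit [NeZero N] in
/-- `barToComplex` as a constant field extension. -/
theorem constExtBar :
    Curve.IsConstantExtension (AlgebraicClosure ℚ) ℂ (Curve.barToComplex N) :=
  Curve.isConstantExtension_barToComplex N

/-- Large multiples of a place support sections. -/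
theorem exists_riemannRochSpace_ne_bot (G : Divisor ℂ (cxField N)) (R : Place ℂ (cxField N)) :
    ∃ m : ℕ, riemannRochSpace (G + Finsupp.single R (m : ℤ)) ≠ ⊥ := by
  refine ⟨((genusFF ℂ (cxField N) : ℤ) - Divisor.degree G).toNat, fun hbot => ?_⟩
  have h1 := Curve.riemann_inequality (G + Finsupp.single R
    ((((genusFF ℂ (cxField N) : ℤ) - Divisor.degree G).toNat : ℕ) : ℤ))
  rw [hbot, finrank_bot, map_add, Divisor.degree_single, Curve.deg_eq_one] at h1
  push_cast at h1
  omega

variable (n : ℕ) [NeZero n]

/-- The base change `J₀(N)[n] → Pic⁰(ℂ(X₀(N)))[n]`. -/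
def barTorsionMap :
    Pic0.torsion (AlgebraicClosure ℚ) (modularFunctionFieldBar N) n →+
      Pic0.torsion ℂ (cxField N) n :=
  (constExtBar N).torsionMap n

omit [NeZero n] in
theorem coe_barTorsionMap
    (c : Pic0.torsion (AlgebraicClosure ℚ) (modularFunctionFieldBar N) n) :
    (barTorsionMap N n c : Pic0 ℂ (cxField N))
      = (constExtBar N).pic0Map (c : Pic0 (AlgebraicClosure ℚ) (modularFunctionFieldBar N)) :=
  Curve.IsConstantExtension.coe_torsionMap (constExtBar N) n c

theorem barTorsionMap_bijective : Function.Bijective (barTorsionMap N n) :=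
  (constExtBar N).torsionMap_bijective (exists_riemannRochSpace_ne_bot N) (finite_torsion_cx N n)

/-- `J₀(N)[n] ≅ Hom_cusp(Γ₀(N), μₙ)`. -/
def kummerEquiv :
    Pic0.torsion (AlgebraicClosure ℚ) (modularFunctionFieldBar N) n ≃+
      cuspidalHoms ℤ (Gamma0 N) (muC n) :=
  (AddEquiv.ofBijective (barTorsionMap N n) (barTorsionMap_bijective N n)).trans
    (kummerEquivCx N n)

theorem kummerEquiv_apply
    (x : Pic0.torsion (AlgebraicClosure ℚ) (modularFunctionFieldBar N) n) :
    kummerEquiv N n x = kummerCx (barTorsionMap N n x) := rfl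

theorem natCard_torsion_JZero :
    Nat.card (Pic0.torsion (AlgebraicClosure ℚ) (modularFunctionFieldBar N) n)
      = n ^ cuspRank N := by
  rw [Nat.card_congr (kummerEquiv N n).toEquiv, natCard_cuspidalHoms_gamma0, natCard_muC]

theorem finite_torsion_JZero :
    Finite (Pic0.torsion (AlgebraicClosure ℚ) (modularFunctionFieldBar N) n) :=
  Nat.finite_of_card_ne_zero (by rw [natCard_torsion_JZero]; exact pow_ne_zero _ (NeZero.ne n))

end FermatLib.Modular.Kummer
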