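import Fermat.Agent.Modular.Kummer.DictionaryInstance
import Fermat.Agent.Modular.Gamma0Homs
import Mathlib.RingTheory.RootsOfUnity.PrimitiveRoots
import Mathlib.RingTheory.RootsOfUnity.EnoughRootsOfUnity
import Mathlib.RingTheory.RootsOfUnity.Complex
import Mathlib.Analysis.Complex.Polynomial.Basic

/-!
`Pic⁰(ℂ(X₀(N)))[n] ≅ Hom_cusp(Γ₀(N), μₙ)`.
-/

set_option autoImplicit false

noncomputable section

open Complex hiding I
open CongruenceSubgroup ModularCurve AlgebraicCurve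
open scoped MatrixGroups

namespace FermatLib.Modular.Kummer

variable (N : ℕ) [NeZero N] (n : ℕ)

/-- The additive group `μₙ(ℂ)`. -/
abbrev muC : Type := Additive (rootsOfUnity n ℂ)

variable {N n}

/-- A homomorphism to `μₙ` as a character. -/
def toChar (φ : Additive (Gamma0 N) →+ muC n) : Gamma0 N →* ℂˣ :=
  (rootsOfUnity n ℂ).subtype.comp (AddMonoidHom.toMultiplicative φ)

omit [NeZero N] in
theorem toChar_apply (φ : Additive (Gamma0 N) →+ muC n) (γ : Gamma0 N) :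
    toChar φ γ = ((Additive.toMul (φ (Additive.ofMul γ)) : rootsOfUnity n ℂ) : ℂˣ) := rfl

omit [NeZero N] in
theorem toChar_injective : Function.Injective (toChar (N := N) (n := n)) := fun φ ψ h =>
  AddMonoidHom.ext fun γ => by
    exact congrArg Additive.ofMul (Subtype.ext (DFunLike.congr_fun h (Additive.toMul γ)))

omit [NeZero N] in
theorem toChar_add (φ ψ : Additive (Gamma0 N) →+ muC n) :
    toChar (φ + ψ) = toChar φ * toChar ψ := rfl

omit [NeZero N] in
theorem toChar_zero : toChar (0 : Additive (Gamma0 N) →+ muC n) = 1 := rfl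

omit [NeZero N] in
theorem toChar_pow_eq_one (φ : Additive (Gamma0 N) →+ muC n) (γ : Gamma0 N) :
    toChar φ γ ^ n = 1 :=
  (mem_rootsOfUnity n _).mp (Additive.toMul (φ (Additive.ofMul γ))).2

omit [NeZero N] in
theorem killsLE_toChar {φ : Additive (Gamma0 N) →+ muC n}
    (h : φ ∈ cuspidalHoms ℤ (Gamma0 N) (muC n)) : KillsLE (toChar φ) := fun γ hγ => by
  rw [toChar_apply, h γ hγ]
  rfl

omit [NeZero N] in
theorem exists_toChar_eq {χ : Gamma0 N →* ℂˣ} (hχn : ∀ γ, χ γ ^ n = 1) (hχ : KillsLE χ) :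
    ∃ φ : cuspidalHoms ℤ (Gamma0 N) (muC n), toChar φ.1 = χ := by
  refine ⟨⟨MonoidHom.toAdditive (χ.codRestrict (rootsOfUnity n ℂ)
    fun γ => (mem_rootsOfUnity n _).mpr (hχn γ)), fun γ hγ => ?_⟩, rfl⟩
  exact congrArg Additive.ofMul (Subtype.ext (hχ γ hγ))

variable [NeZero n]

theorem exists_negative {D : Divisor ℂ (cxField N)} {f : cxField N} (hf : f ≠ 0)
    (hD : ∀ v, v.ord f = (n : ℤ) * D v) :
    ∃ χ, IsKummerChar n (-D) χ :=
  let ⟨χ, _, h⟩ := exists_isKummerChar (cxDictionary N) (NeZero.ne n) (D := -D) (f := f⁻¹)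
    (inv_ne_zero hf) fun v => by rw [v.ord_inv, hD, Finsupp.neg_apply, mul_neg]
  ⟨χ, h⟩

theorem IsKummerChar.unique {D D' : Divisor ℂ (cxField N)} {χ χ' : Gamma0 N →* ℂˣ}
    (h : IsKummerChar n D χ) (h' : IsKummerChar n D' χ') (hP : Divisor.IsPrincipal (D - D')) :
    χ = χ' := by
  obtain ⟨k, A, B, f, r, hA, hB, hAB, hD, -⟩ := id h'
  obtain ⟨χ'', h''⟩ := exists_negative (ne_zero_of_eq hA hAB) hD
  have h1 : χ * χ'' = 1 := IsKummerChar.eq_one (cxDictionary N) (NeZero.ne n) (h.add h'')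
    (by rwa [← sub_eq_add_neg])
  have h2 : χ' * χ'' = 1 := IsKummerChar.eq_one (cxDictionary N) (NeZero.ne n) (h'.add h'')
    (by rw [add_neg_cancel]; exact Divisor.principal.zero_mem)
  refine MonoidHom.ext fun γ => mul_right_cancel (b := χ'' γ) ?_
  exact (DFunLike.congr_fun h1 γ).trans (DFunLike.congr_fun h2 γ).symm

theorem exists_kummer (x : Pic0.torsion ℂ (cxField N) n) :
    ∃ φ : cuspidalHoms ℤ (Gamma0 N) (muC n), ∀ D : Divisor.degZero (K := ℂ) (F := cxField N),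
      Pic0.mk D = (x : Pic0 ℂ (cxField N)) → IsKummerChar n (D : Divisor ℂ (cxField N)) (toChar φ.1) := by
  obtain ⟨D₀, hD₀⟩ := Pic0.mk_surjective (x : Pic0 ℂ (cxField N))
  have hprin : ∀ D : Divisor.degZero (K := ℂ) (F := cxField N),
      Pic0.mk D = (x : Pic0 ℂ (cxField N)) → ∃ f : cxField N, f ≠ 0 ∧
        ∀ v, v.ord f = (n : ℤ) * (D : Divisor ℂ (cxField N)) v := by
    intro D hD
    have hx := Pic0.mem_torsion.mp x.2
    rw [← hD, show (n : ℤ) • Pic0.mk D = Pic0.mk ((n : ℤ) • D) from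
      rfl] at hx
    obtain ⟨f, hf, hfD⟩ := AddSubgroup.mem_addSubgroupOf.mp ((QuotientAddGroup.eq_zero_iff _).mp hx)
    refine ⟨f, hf, fun v => ?_⟩
    rw [← hfD v]
    simp
  obtain ⟨f, hf, hfD⟩ := hprin D₀ hD₀
  obtain ⟨χ, hχ, hK⟩ := exists_isKummerChar (cxDictionary N) (NeZero.ne n) hf hfD
  obtain ⟨φ, hφ⟩ := exists_toChar_eq (hK.pow_eq_one (NeZero.ne n)) hχ
  refine ⟨φ, fun D hD => ?_⟩
  obtain ⟨g, hg, hgD⟩ := hprin D hD
  obtain ⟨χ', -, hK'⟩ := exists_isKummerChar (cxDictionary N) (NeZero.ne n) hg hgD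
  have : χ' = χ := by
    refine hK'.unique hK ?_
    have h := hD.trans hD₀.symm
    have h2 := AddSubgroup.mem_addSubgroupOf.mp (QuotientAddGroup.eq.mp h.symm)
    rw [AddSubgroup.coe_add, AddSubgroup.coe_neg, neg_add_eq_sub] at h2
    exact h2
  rwa [hφ, ← this]

/-- The Kummer map. -/
def kummerCx (x : Pic0.torsion ℂ (cxField N) n) : cuspidalHoms ℤ (Gamma0 N) (muC n) :=
  (exists_kummer x).choose

theorem isKummerChar_kummerCx (x : Pic0.torsion ℂ (cxField N) n)
    {D : Divisor.degZero (K := ℂ) (F := cxField N)} (hD : Pic0.mk D = (x : Pic0 ℂ (cxField N))) :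
    IsKummerChar n (D : Divisor ℂ (cxField N)) (toChar (kummerCx x).1) :=
  (exists_kummer x).choose_spec D hD

theorem kummerCx_eq_iff (x : Pic0.torsion ℂ (cxField N) n)
    (φ : cuspidalHoms ℤ (Gamma0 N) (muC n)) {D : Divisor.degZero (K := ℂ) (F := cxField N)}
    (hD : Pic0.mk D = (x : Pic0 ℂ (cxField N))) :
    kummerCx x = φ ↔ IsKummerChar n (D : Divisor ℂ (cxField N)) (toChar φ.1) := by
  refine ⟨fun h => h ▸ isKummerChar_kummerCx x hD, fun h => ?_⟩
  exact Subtype.ext (toChar_injective ((isKummerChar_kummerCx x hD).unique h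
    (by rw [sub_self]; exact Divisor.principal.zero_mem)))

theorem kummerCx_add (x y : Pic0.torsion ℂ (cxField N) n) :
    kummerCx (x + y) = kummerCx x + kummerCx y := by
  obtain ⟨D, hD⟩ := Pic0.mk_surjective (x : Pic0 ℂ (cxField N))
  obtain ⟨E, hE⟩ := Pic0.mk_surjective (y : Pic0 ℂ (cxField N))
  refine (kummerCx_eq_iff (x + y) _ (D := D + E) ?_).mpr ?_
  · rw [AddSubgroup.coe_add, Pic0.mk_add, hD, hE]
  · rw [AddSubgroup.coe_add, Submodule.coe_add, toChar_add]
    exact (isKummerChar_kummerCx x hD).add (isKummerChar_kummerCx y hE)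

variable (N n)

/-- The Kummer homomorphism. -/
def kummerHomCx : Pic0.torsion ℂ (cxField N) n →+ cuspidalHoms ℤ (Gamma0 N) (muC n) :=
  AddMonoidHom.mk' kummerCx kummerCx_add

theorem kummerHomCx_bijective : Function.Bijective (kummerHomCx N n) := by
  refine ⟨(injective_iff_map_eq_zero _).mpr fun x hx => ?_, fun φ => ?_⟩
  · obtain ⟨D, hD⟩ := Pic0.mk_surjective (x : Pic0 ℂ (cxField N))
    have h := (kummerCx_eq_iff x 0 hD).mp hx
    rw [ZeroMemClass.coe_zero, toChar_zero] at h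
    refine Subtype.ext ?_
    rw [← hD, ZeroMemClass.coe_zero]
    exact (QuotientAddGroup.eq_zero_iff D).mpr
      (AddSubgroup.mem_addSubgroupOf.mpr (IsKummerChar.isPrincipal (cxDictionary N) (NeZero.ne n) h))
  · obtain ⟨D, hD0, hK⟩ := exists_divisor_isKummerChar (cxDictionary N) (NeZero.ne n)
      (toChar_pow_eq_one φ.1) (killsLE_toChar φ.2)
    set D' : Divisor.degZero (K := ℂ) (F := cxField N) := ⟨D, Divisor.mem_degZero.mpr hD0⟩
    obtain ⟨k, A, B, f, r, hA, hB, hAB, hD, -⟩ := id hK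
    have hx : Pic0.mk D' ∈ Pic0.torsion ℂ (cxField N) n := by
      rw [Pic0.mem_torsion, show (n : ℤ) • Pic0.mk D' = Pic0.mk ((n : ℤ) • D') from
        rfl]
      refine (QuotientAddGroup.eq_zero_iff _).mpr (AddSubgroup.mem_addSubgroupOf.mpr
        ⟨f, ne_zero_of_eq hA hAB, fun v => ?_⟩)
      rw [hD]
      simp [D']
    exact ⟨⟨Pic0.mk D', hx⟩, (kummerCx_eq_iff _ φ (D := D') rfl).mpr hK⟩

/-- `Pic⁰[n] ≅ Hom_cusp(Γ₀(N), μₙ)` over `ℂ`. -/
def kummerEquivCx : Pic0.torsion ℂ (cxField N) n ≃+ cuspidalHoms ℤ (Gamma0 N) (muC n) :=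
  AddEquiv.ofBijective (kummerHomCx N n) (kummerHomCx_bijective N n)

theorem natCard_muC : Nat.card (muC n) = n := by
  have h : Nat.card (rootsOfUnity n ℂ) = n := by
    exact HasEnoughRootsOfUnity.natCard_rootsOfUnity ℂ n
  exact h

theorem natCard_torsion_cx :
    Nat.card (Pic0.torsion ℂ (cxField N) n) = n ^ cuspRank N := by
  rw [Nat.card_congr (kummerEquivCx N n).toEquiv, natCard_cuspidalHoms_gamma0, natCard_muC]

theorem finite_torsion_cx : Finite (Pic0.torsion ℂ (cxField N) n) :=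
  Nat.finite_of_card_ne_zero (by rw [natCard_torsion_cx]; exact pow_ne_zero _ (NeZero.ne n))

end FermatLib.Modular.Kummer
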