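import Mathlib.Analysis.Complex.HasPrimitives
import Mathlib.Analysis.Complex.CauchyIntegral
import Mathlib.Analysis.Analytic.Order
import Mathlib.Analysis.Analytic.IsolatedZeros
import Mathlib.Analysis.Complex.UpperHalfPlane.Manifold
import Mathlib.Analysis.Normed.Module.Convex
import Mathlib.Analysis.Calculus.MeanValue
import Mathlib.FieldTheory.IsAlgClosed.Basic
import Mathlib.Analysis.Complex.Polynomial.Basic

/-!
`n`-th roots of holomorphic functions with `n`-divisible zero orders on the upper half plane.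
-/

set_option autoImplicit false

noncomputable section

open Complex Filter Metric Set
open scoped Topology

namespace FermatLib.Modular.Kummer

/-- The upper half plane as a subset of `ℂ`. -/
def uhpSet : Set ℂ := {z | 0 < z.im}

theorem isOpen_uhpSet : IsOpen uhpSet := isOpen_lt continuous_const Complex.continuous_im

theorem isPreconnected_uhpSet : IsPreconnected uhpSet :=
  (convex_halfSpace_im_gt 0).isPreconnected

/-- Exhausting balls. -/
def expBall (n : ℕ) : Set ℂ := ball (((n : ℂ) + 2) * I) ((n : ℝ) + 2 - 1 / ((n : ℝ) + 2))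

theorem closedBall_subset_uhpSet (n : ℕ) :
    closedBall (((n : ℂ) + 2) * I) ((n : ℝ) + 2 - 1 / ((n : ℝ) + 2)) ⊆ uhpSet := by
  intro z hz
  have hp : (0 : ℝ) < 1 / ((n : ℝ) + 2) := one_div_pos.mpr (by linarith [n.cast_nonneg (α := ℝ)])
  generalize hε : 1 / ((n : ℝ) + 2) = ε at hz hp
  rw [mem_closedBall, dist_eq] at hz
  have h2 : |(z - ((n : ℂ) + 2) * I).im| ≤ (n : ℝ) + 2 - ε := (abs_im_le_norm _).trans hz
  have h3 : (((n : ℂ) + 2) * I).im = (n : ℝ) + 2 := by simp
  rw [sub_im, h3, abs_le] at h2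
  show 0 < z.im
  linarith [h2.1]

theorem expBall_subset_uhpSet (n : ℕ) : expBall n ⊆ uhpSet :=
  ball_subset_closedBall.trans (closedBall_subset_uhpSet n)

theorem expBall_mono {n m : ℕ} (h : n ≤ m) : expBall n ⊆ expBall m := by
  apply ball_subset_ball'
  rw [dist_eq, ← sub_mul, norm_mul, norm_I, mul_one]
  have hnm : ((n : ℂ) + 2 - ((m : ℂ) + 2)) = -(((m - n : ℕ) : ℂ)) := by
    push_cast [h]; ring
  rw [hnm, norm_neg, Complex.norm_natCast]
  have h' : (n : ℝ) ≤ m := by exact_mod_cast h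
  have : 1 / ((m : ℝ) + 2) ≤ 1 / ((n : ℝ) + 2) := by gcongr
  push_cast [h]
  linarith

theorem exists_mem_expBall {z : ℂ} (hz : z ∈ uhpSet) : ∃ n : ℕ, z ∈ expBall n := by
  have hz' : (0 : ℝ) < z.im := hz
  obtain ⟨n, hn⟩ := exists_nat_gt ((z.re ^ 2 + z.im ^ 2 + 2) / z.im)
  refine ⟨n, ?_⟩
  rw [div_lt_iff₀ hz'] at hn
  have hn0 : (0 : ℝ) ≤ n := n.cast_nonneg
  have hr : (0 : ℝ) ≤ (n : ℝ) + 2 - 1 / ((n : ℝ) + 2) := by
    have : 1 / ((n : ℝ) + 2) ≤ 1 := by rw [div_le_one (by positivity)]; linarith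
    linarith
  have hsq : ((n : ℝ) + 2 - 1 / ((n : ℝ) + 2)) ^ 2
      = ((n : ℝ) + 2) ^ 2 - 2 + (1 / ((n : ℝ) + 2)) ^ 2 := by
    field_simp
    ring
  have hsq0 : 0 ≤ (1 / ((n : ℝ) + 2)) ^ 2 := sq_nonneg _
  rw [expBall, mem_ball, dist_eq, norm_def, Real.sqrt_lt (normSq_nonneg _) hr, normSq_apply, hsq]
  simp only [sub_re, sub_im, mul_re, mul_im, add_re, add_im, natCast_re, natCast_im,
    re_ofNat, im_ofNat, I_re, I_im]
  nlinarith

/-- A holomorphic function is divisible by `(z - a)^(order)` within holomorphic functions. -/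
theorem exists_factor_pow {U : Set ℂ} (hU : IsOpen U) {h : ℂ → ℂ}
    (hh : DifferentiableOn ℂ h U) {a : ℂ} (ha : a ∈ U) {k : ℕ}
    (hk : analyticOrderAt h a = k) :
    ∃ u : ℂ → ℂ, DifferentiableOn ℂ u U ∧ u a ≠ 0 ∧ ∀ z ∈ U, h z = (z - a) ^ k * u z := by
  classical
  have hana : AnalyticAt ℂ h a := hh.analyticAt (hU.mem_nhds ha)
  obtain ⟨g, hg, hga, hev⟩ := hana.analyticOrderAt_eq_natCast.mp hk
  set u : ℂ → ℂ := Function.update (fun z => h z / (z - a) ^ k) a (g a) with hu
  have hue : u =ᶠ[𝓝 a] g := by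
    filter_upwards [hev] with z hz
    rcases eq_or_ne z a with rfl | hne
    · simp [hu]
    · rw [hu, Function.update_of_ne hne, hz, smul_eq_mul]
      field_simp [pow_ne_zero k (sub_ne_zero.mpr hne)]
  refine ⟨u, fun z hz => ?_, by simpa [hu] using hga, fun z hz => ?_⟩
  · rcases eq_or_ne z a with rfl | hne
    · exact (hg.congr hue.symm).differentiableAt.differentiableWithinAt
    · have h1 : DifferentiableAt ℂ (fun w => h w / (w - a) ^ k) z :=
        ((hh.differentiableAt (hU.mem_nhds hz))).div (by fun_prop)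
          (pow_ne_zero k (sub_ne_zero.mpr hne))
      refine (h1.congr_of_eventuallyEq ?_).differentiableWithinAt
      filter_upwards [isOpen_ne.mem_nhds hne] with w hw
      rw [hu, Function.update_of_ne hw]
  · rcases eq_or_ne z a with rfl | hne
    · have := hev.self_of_nhds
      simpa [hu] using this
    · rw [hu, Function.update_of_ne hne]
      field_simp [pow_ne_zero k (sub_ne_zero.mpr hne)]

/-- A nowhere vanishing holomorphic function on a ball has an `n`-th root. -/
theorem exists_root_of_ne_zero_ball {c : ℂ} {R : ℝ} {u : ℂ → ℂ}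
    (hu : DifferentiableOn ℂ u (ball c R)) (h0 : ∀ z ∈ ball c R, u z ≠ 0) {n : ℕ} (hn : n ≠ 0) :
    ∃ r : ℂ → ℂ, DifferentiableOn ℂ r (ball c R) ∧ ∀ z ∈ ball c R, r z ^ n = u z := by
  rcases le_or_gt R 0 with hR | hR
  · exact ⟨0, by simp [ball_eq_empty.mpr hR], by simp [ball_eq_empty.mpr hR]⟩
  have hd : DifferentiableOn ℂ (deriv u) (ball c R) :=
    ((hu.analyticOnNhd isOpen_ball).deriv).differentiableOn
  obtain ⟨P, hPc, hP⟩ :=
    ((hd.div hu h0).isExactOn_ball).with_val_at c 0
  have hQ : ∀ z ∈ ball c R, HasDerivAt (fun w => u w * exp (-P w)) 0 z := by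
    intro z hz
    have h1 := (hu.differentiableAt (isOpen_ball.mem_nhds hz)).hasDerivAt
    have h2 := ((hP z hz).neg).cexp
    refine (h1.mul h2).congr_deriv ?_
    simp only [Pi.div_apply, Pi.neg_apply]
    field_simp [h0 z hz]
    ring
  have hconst : ∀ z ∈ ball c R, u z * exp (-P z) = u c := by
    intro z hz
    have := isOpen_ball.is_const_of_deriv_eq_zero (f := fun w => u w * exp (-P w))
      (convex_ball _ _).isPreconnected
      (fun x hx => (hQ x hx).differentiableAt.differentiableWithinAt)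
      (fun x hx => (hQ x hx).deriv) hz (mem_ball_self hR)
    simpa [hPc] using this
  obtain ⟨d, hd'⟩ := IsAlgClosed.exists_pow_nat_eq (u c) (Nat.pos_of_ne_zero hn)
  refine ⟨fun z => d * exp (P z / n), fun z hz => ?_, fun z hz => ?_⟩
  · exact (((hP z hz).div_const (n : ℂ)).cexp.const_mul d).differentiableAt.differentiableWithinAt
  · rw [mul_pow, hd', ← exp_nat_mul, mul_div_cancel₀ _ (Nat.cast_ne_zero.mpr hn), ← hconst z hz,
      mul_assoc, ← exp_add, neg_add_cancel, exp_zero, mul_one]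

/-- Two `n`-th roots of the same not identically vanishing function differ by a root of unity. -/
theorem exists_eq_const_mul_of_pow_eq {U : Set ℂ} (hU : IsOpen U) (hc : IsPreconnected U)
    {r s : ℂ → ℂ} (hr : DifferentiableOn ℂ r U) (hs : DifferentiableOn ℂ s U) {n : ℕ} (hn : n ≠ 0)
    (h : ∀ z ∈ U, r z ^ n = s z ^ n) (hne : ∃ z ∈ U, r z ≠ 0) :
    ∃ ζ : ℂ, ζ ^ n = 1 ∧ ∀ z ∈ U, s z = ζ * r z := by
  obtain ⟨z0, hz0, hr0⟩ := hne
  set q : ℂ → ℂ := fun z => s z / r z with hq
  have hcont : ContinuousAt q z0 :=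
    (hs.differentiableAt (hU.mem_nhds hz0)).continuousAt.div
      (hr.differentiableAt (hU.mem_nhds hz0)).continuousAt hr0
  have hroot : ∀ᶠ z in 𝓝 z0, q z ^ n = 1 := by
    filter_upwards [hU.mem_nhds hz0,
      (hr.differentiableAt (hU.mem_nhds hz0)).continuousAt.eventually_ne hr0] with z hz hz'
    rw [hq, div_pow, ← h z hz, div_self (pow_ne_zero n hz')]
  have hfin : ({x : ℂ | x ^ n = 1}).Finite := by
    have h1 : (Polynomial.X ^ n - Polynomial.C (1 : ℂ)) ≠ 0 :=
      Polynomial.X_pow_sub_C_ne_zero (Nat.pos_of_ne_zero hn) 1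
    refine (Polynomial.finite_setOfPred_isRoot h1).subset ?_
    intro x hx
    have hx' : x ^ n = 1 := hx
    simp [Polynomial.IsRoot, hx']
  have hζ : q z0 ^ n = 1 := hroot.self_of_nhds
  have hopen : ∀ᶠ z in 𝓝 z0, q z ∉ ({x : ℂ | x ^ n = 1} \ {q z0}) :=
    hcont.eventually ((hfin.sdiff.isClosed.isOpen_compl).mem_nhds (by simp))
  refine ⟨q z0, hζ, ?_⟩
  have heq : ∀ᶠ z in 𝓝 z0, s z = q z0 * r z := by
    filter_upwards [hroot, hopen,
      (hr.differentiableAt (hU.mem_nhds hz0)).continuousAt.eventually_ne hr0] with z h1 h2 h3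
    have : q z = q z0 := by
      by_contra hne'
      exact h2 ⟨h1, hne'⟩
    rw [← this, hq, div_mul_cancel₀ _ h3]
  exact (hs.analyticOnNhd hU).eqOn_of_preconnected_of_eventuallyEq
    ((hr.const_mul (q z0)).analyticOnNhd hU) hc hz0 heq

/-- Roots on a ball when the (finitely many) zeros in it have orders divisible by `n`. -/
theorem exists_root_ball {U : Set ℂ} (hU : IsOpen U) {c : ℂ} {R : ℝ} (hR : ball c R ⊆ U)
    {n : ℕ} (hn : n ≠ 0) (Z : Finset ℂ) :
    ∀ h : ℂ → ℂ, DifferentiableOn ℂ h U → (∀ a ∈ U, analyticOrderAt h a ≠ ⊤) →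
      (∀ a ∈ U, n ∣ analyticOrderNatAt h a) → (∀ z ∈ ball c R, h z = 0 → z ∈ Z) →
      ∃ r : ℂ → ℂ, DifferentiableOn ℂ r (ball c R) ∧ ∀ z ∈ ball c R, r z ^ n = h z := by
  classical
  induction Z using Finset.induction_on with
  | empty =>
    intro h hh _ _ hz
    exact exists_root_of_ne_zero_ball (hh.mono hR) (fun z hz' h0 => absurd (hz z hz' h0) (by simp))
      hn
  | insert a Z ha ih =>
    intro h hh htop hdvd hz
    by_cases hab : a ∈ ball c R
    swap
    · refine ih h hh htop hdvd fun z hz' h0 => ?_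
      rcases Finset.mem_insert.mp (hz z hz' h0) with rfl | h1
      · exact absurd hz' hab
      · exact h1
    obtain ⟨m, hm⟩ := hdvd a (hR hab)
    have hord : analyticOrderAt h a = ((n * m : ℕ) : ℕ∞) := by
      rw [← hm, Nat.cast_analyticOrderNatAt (htop a (hR hab))]
    obtain ⟨u, hu, hua, hfac⟩ := exists_factor_pow hU hh (hR hab) hord
    set P : ℂ → ℂ := fun z => (z - a) ^ (n * m)
    have hmul : ∀ b ∈ U, analyticOrderAt h b = analyticOrderAt P b + analyticOrderAt u b := by
      intro b hb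
      rw [← analyticOrderAt_mul (by fun_prop) (hu.analyticAt (hU.mem_nhds hb))]
      refine analyticOrderAt_congr ?_
      filter_upwards [hU.mem_nhds hb] with z hz'
      exact hfac z hz'
    have hP : ∀ b, b ≠ a → analyticOrderAt P b = 0 := fun b hb =>
      analyticOrderAt_eq_zero.mpr (Or.inr (pow_ne_zero _ (sub_ne_zero.mpr hb)))
    have htop' : ∀ b ∈ U, analyticOrderAt u b ≠ ⊤ := by
      intro b hb hb'
      exact htop b hb (by rw [hmul b hb, hb', add_top])
    have hdvd' : ∀ b ∈ U, n ∣ analyticOrderNatAt u b := by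
      intro b hb
      rcases eq_or_ne b a with rfl | hne
      · rw [analyticOrderNatAt, analyticOrderAt_eq_zero.mpr (Or.inr hua)]
        simp
      · have h1 := hmul b hb
        rw [hP b hne, zero_add] at h1
        have h2 := hdvd b hb
        rwa [analyticOrderNatAt, h1] at h2
    obtain ⟨r, hr, hr'⟩ := ih u hu htop' hdvd' fun z hz' h0 => by
      have hz'' : h z = 0 := by rw [hfac z (hR hz'), h0, mul_zero]
      rcases Finset.mem_insert.mp (hz z hz' hz'') with rfl | h1
      · exact absurd h0 hua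
      · exact h1
    refine ⟨fun z => (z - a) ^ m * r z, ?_, fun z hz' => ?_⟩
    · exact ((differentiable_id.sub_const a).pow m).differentiableOn.mul hr
    · rw [mul_pow, hr' z hz', ← pow_mul, mul_comm m n, ← hfac z (hR hz')]

/-- **Global roots on the upper half plane.** -/
theorem exists_root_uhpSet {h : ℂ → ℂ} (hh : DifferentiableOn ℂ h uhpSet)
    (hne : ∃ z ∈ uhpSet, h z ≠ 0) {n : ℕ} (hn : n ≠ 0)
    (hdvd : ∀ a ∈ uhpSet, n ∣ analyticOrderNatAt h a) :
    ∃ r : ℂ → ℂ, DifferentiableOn ℂ r uhpSet ∧ ∀ z ∈ uhpSet, r z ^ n = h z := by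
  classical
  have han : AnalyticOnNhd ℂ h uhpSet := hh.analyticOnNhd isOpen_uhpSet
  have hzero : ∀ᶠ z in codiscreteWithin uhpSet, h z ≠ 0 := by
    rcases han.eqOn_zero_or_eventually_ne_zero_of_preconnected isPreconnected_uhpSet with h0 | h0
    · obtain ⟨z, hz, hz'⟩ := hne
      exact absurd (h0 hz) hz'
    · exact h0
  have htop : ∀ a ∈ uhpSet, analyticOrderAt h a ≠ ⊤ := by
    intro a ha
    obtain ⟨z, hz, hz'⟩ := hne
    refine han.analyticOrderAt_ne_top_of_isPreconnected isPreconnected_uhpSet hz ha ?_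
    rw [analyticOrderAt_eq_zero.mpr (Or.inr hz')]
    exact ENat.zero_ne_top
  have hloc : ∀ k : ℕ, ∃ r : ℂ → ℂ, DifferentiableOn ℂ r (expBall k) ∧
      ∀ z ∈ expBall k, r z ^ n = h z := by
    intro k
    set K := closedBall (((k : ℂ) + 2) * I) ((k : ℝ) + 2 - 1 / ((k : ℝ) + 2))
    have hfin : (K ∩ {z | h z = 0}).Finite := by
      have hc : IsCompact (K ∩ {z | h z = 0}) := by
        refine (isCompact_closedBall _ _).of_isClosed_subset ?_ inter_subset_left
        exact (hh.continuousOn.mono (closedBall_subset_uhpSet k)).preimage_isClosed_of_isClosed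
          isClosed_closedBall isClosed_singleton
      refine hc.finite ?_
      rw [isDiscrete_iff_discreteTopology, discreteTopology_subtype_iff]
      intro z hz
      have h1 := mem_codiscreteWithin.mp hzero z (closedBall_subset_uhpSet k hz.1)
      rw [disjoint_principal_right] at h1
      rw [← disjoint_iff, disjoint_principal_right]
      filter_upwards [h1] with w hw hw'
      exact hw ⟨closedBall_subset_uhpSet k hw'.1, fun h2 => h2 hw'.2⟩
    exact exists_root_ball isOpen_uhpSet (expBall_subset_uhpSet k) hn hfin.toFinset h hh htop hdvd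
      fun z hz h0 => hfin.mem_toFinset.mpr ⟨ball_subset_closedBall hz, h0⟩
  choose g hg hgp using hloc
  have hI : ∀ k, ∃ z ∈ expBall k, h z ≠ 0 := by
    intro k
    by_contra hall
    push Not at hall
    have hc : ((k : ℂ) + 2) * I ∈ expBall k := by
      refine mem_ball_self ?_
      have h1 : 1 / ((k : ℝ) + 2) < 1 := by rw [div_lt_one (by positivity)]; linarith
      have h2 : (0 : ℝ) ≤ k := k.cast_nonneg
      linarith
    refine htop _ (expBall_subset_uhpSet k hc) (analyticOrderAt_eq_top.mpr ?_)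
    filter_upwards [isOpen_ball.mem_nhds hc] with z hz using hall z hz
  -- normalise the family so that it is compatible
  have hstep : ∀ k, ∃ ζ : ℂ, ζ ^ n = 1 ∧ ∀ z ∈ expBall 0, g 0 z = ζ * g k z := by
    intro k
    have h0k : expBall 0 ⊆ expBall k := expBall_mono (Nat.zero_le k)
    refine exists_eq_const_mul_of_pow_eq isOpen_ball (convex_ball _ _).isPreconnected
      ((hg k).mono h0k) (hg 0) hn (fun z hz => by rw [hgp k z (h0k hz), hgp 0 z hz]) ?_
    obtain ⟨z, hz, hz'⟩ := hI 0
    exact ⟨z, hz, fun h0 => hz' (by rw [← hgp k z (h0k hz), h0, zero_pow hn])⟩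
  choose ζ hζ hζ' using hstep
  set G : ℕ → ℂ → ℂ := fun k z => ζ k * g k z
  have agree : ∀ k l, k ≤ l → ∀ z ∈ expBall k, G k z = G l z := by
    intro k l hkl
    have hsub := expBall_mono hkl
    have hc : (2 : ℂ) * I ∈ expBall 0 := by simp [expBall]; norm_num
    refine (((hg k).const_mul (ζ k)).analyticOnNhd isOpen_ball).eqOn_of_preconnected_of_eventuallyEq
      ((((hg l).mono hsub).const_mul (ζ l)).analyticOnNhd isOpen_ball)
      (convex_ball _ _).isPreconnected (expBall_mono (Nat.zero_le k) hc) ?_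
    filter_upwards [isOpen_ball.mem_nhds hc] with z hz
    show ζ k * g k z = ζ l * g l z
    rw [← hζ' k z hz, ← hζ' l z hz]
  have hex : ∀ z, ∃ k, z ∈ uhpSet → z ∈ expBall k := fun z => by
    by_cases hz : z ∈ uhpSet
    · obtain ⟨k, hk⟩ := exists_mem_expBall hz
      exact ⟨k, fun _ => hk⟩
    · exact ⟨0, fun h0 => absurd h0 hz⟩
  choose N hN using hex
  refine ⟨fun z => G (N z) z, fun z hz => ?_, fun z hz => ?_⟩
  · have h1 : DifferentiableAt ℂ (G (N z)) z :=
      ((hg (N z)).const_mul _).differentiableAt (isOpen_ball.mem_nhds (hN z hz))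
    refine (h1.congr_of_eventuallyEq ?_).differentiableWithinAt
    filter_upwards [isOpen_ball.mem_nhds (hN z hz), isOpen_uhpSet.mem_nhds hz] with w hw hw'
    rcases le_total (N z) (N w) with hle | hle
    · exact (agree _ _ hle w hw).symm
    · exact agree _ _ hle w (hN w hw')
  · show (ζ (N z) * g (N z) z) ^ n = h z
    rw [mul_pow, hζ, one_mul, hgp _ z (hN z hz)]

end FermatLib.Modular.Kummer
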