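import Fermat.Agent.Modular.Kummer.HolRoot
import Mathlib.NumberTheory.ModularForms.Basic
import Mathlib.NumberTheory.ModularForms.CongruenceSubgroups

/-!
Forms with a character, their orders, and roots of modular forms.
-/

set_option autoImplicit false

noncomputable section

open Complex hiding I
open UpperHalfPlane hiding I
open CongruenceSubgroup Filter
open scoped Topology MatrixGroups ModularForm Manifold

namespace FermatLib.Modular.Kummer

variable {N : ℕ}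

/-- Holomorphic form of weight `k` on `Γ₀(N)` with character `χ`. -/
structure IsTwisted (χ : Gamma0 N →* ℂˣ) (k : ℤ) (r : ℍ → ℂ) : Prop where
  mdiff : MDiff r
  slash : ∀ γ : Gamma0 N, r ∣[k] (γ : SL(2, ℤ)) = (χ γ : ℂ) • r
  bdd : ∀ A : SL(2, ℤ), IsBoundedAtImInfty (r ∣[k] A)

/-- The order of vanishing of a function on `ℍ` at a point. -/
def ordH (f : ℍ → ℂ) (τ : ℍ) : ℕ := analyticOrderNatAt (f ∘ ofComplex) (τ : ℂ)

theorem differentiableOn_comp_ofComplex {f : ℍ → ℂ} (hf : MDiff f) :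
    DifferentiableOn ℂ (f ∘ ofComplex) uhpSet :=
  UpperHalfPlane.mdifferentiable_iff.mp hf

theorem analyticAt_comp_ofComplex {f : ℍ → ℂ} (hf : MDiff f) (τ : ℍ) :
    AnalyticAt ℂ (f ∘ ofComplex) (τ : ℂ) :=
  (differentiableOn_comp_ofComplex hf).analyticAt (isOpen_uhpSet.mem_nhds τ.im_pos)

theorem exists_ne_zero_comp_ofComplex {f : ℍ → ℂ} (hne : f ≠ 0) :
    ∃ z ∈ uhpSet, (f ∘ ofComplex) z ≠ 0 := by
  obtain ⟨z, hz⟩ := Function.ne_iff.mp hne
  exact ⟨z, z.im_pos, by simpa [ofComplex_apply] using hz⟩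

theorem analyticOrderAt_ne_top_of_ne_zero {f : ℍ → ℂ} (hf : MDiff f) (hne : f ≠ 0) (τ : ℍ) :
    analyticOrderAt (f ∘ ofComplex) (τ : ℂ) ≠ ⊤ := by
  obtain ⟨z, hz, hz'⟩ := exists_ne_zero_comp_ofComplex hne
  refine ((differentiableOn_comp_ofComplex hf).analyticOnNhd
    isOpen_uhpSet).analyticOrderAt_ne_top_of_isPreconnected isPreconnected_uhpSet hz τ.im_pos ?_
  rw [analyticOrderAt_eq_zero.mpr (Or.inr hz')]
  exact ENat.zero_ne_top

theorem ordH_mul {f g : ℍ → ℂ} (hf : MDiff f) (hg : MDiff g) (hf0 : f ≠ 0) (hg0 : g ≠ 0) (τ : ℍ) :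
    ordH (f * g) τ = ordH f τ + ordH g τ :=
  analyticOrderNatAt_mul (analyticAt_comp_ofComplex hf τ) (analyticAt_comp_ofComplex hg τ)
    (analyticOrderAt_ne_top_of_ne_zero hf hf0 τ) (analyticOrderAt_ne_top_of_ne_zero hg hg0 τ)

theorem ordH_pow {f : ℍ → ℂ} (hf : MDiff f) (n : ℕ) (τ : ℍ) :
    ordH (f ^ n) τ = n * ordH f τ := by
  have h := analyticOrderNatAt_pow (analyticAt_comp_ofComplex hf τ) n
  simpa [ordH, smul_eq_mul] using! h

/-- Root of a holomorphic function on `ℍ`. -/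
theorem exists_root_uhp {h : ℍ → ℂ} (hh : MDiff h) (hne : h ≠ 0) {n : ℕ} (hn : n ≠ 0)
    (hdvd : ∀ τ : ℍ, n ∣ ordH h τ) : ∃ r : ℍ → ℂ, MDiff r ∧ r ^ n = h := by
  obtain ⟨r, hr, hr'⟩ := exists_root_uhpSet (differentiableOn_comp_ofComplex hh)
    (exists_ne_zero_comp_ofComplex hne) hn (fun a ha => hdvd ⟨a, ha⟩)
  refine ⟨fun τ => r τ, UpperHalfPlane.mdifferentiable_iff.mpr ?_, ?_⟩
  · refine hr.congr fun z hz => ?_
    simp [ofComplex_apply_of_im_pos hz]
  · funext τ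
    simpa [ofComplex_apply] using hr' τ τ.im_pos

/-- Two roots of the same nonzero function differ by a root of unity. -/
theorem exists_eq_smul_of_pow_eq {r s : ℍ → ℂ} (hr : MDiff r) (hs : MDiff s) {n : ℕ} (hn : n ≠ 0)
    (h : r ^ n = s ^ n) (hne : r ≠ 0) : ∃ ζ : ℂˣ, ζ ^ n = 1 ∧ s = (ζ : ℂ) • r := by
  obtain ⟨ζ, hζ, hζ'⟩ := exists_eq_const_mul_of_pow_eq isOpen_uhpSet isPreconnected_uhpSet
    (differentiableOn_comp_ofComplex hr) (differentiableOn_comp_ofComplex hs) hn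
    (fun z _ => congrFun h (ofComplex z)) (exists_ne_zero_comp_ofComplex hne)
  have hu : ζ ≠ 0 := fun h0 => by simp [h0, hn] at hζ
  refine ⟨Units.mk0 ζ hu, Units.ext (by simpa using hζ), funext fun τ => ?_⟩
  simpa [ofComplex_apply] using hζ' τ τ.im_pos

theorem pow_slash_SL2 (n : ℕ) (k : ℤ) (A : SL(2, ℤ)) (f : ℍ → ℂ) :
    (f ^ n) ∣[(n : ℤ) * k] A = (f ∣[k] A) ^ n := by
  funext z
  simp only [ModularForm.SL_slash_apply, Pi.pow_apply]
  rw [mul_pow, ← zpow_natCast (denom _ _ ^ (-k)) n, ← zpow_mul]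
  congr 2
  ring

theorem mdifferentiable_slash {f : ℍ → ℂ} (hf : MDiff f) (k : ℤ) (A : SL(2, ℤ)) :
    MDiff (f ∣[k] A) := by
  rw [ModularForm.SL_slash]
  exact hf.slash k _

theorem isBoundedAtImInfty_of_pow {f : ℍ → ℂ} {n : ℕ} (hn : n ≠ 0)
    (h : IsBoundedAtImInfty (f ^ n)) : IsBoundedAtImInfty f := by
  rw [UpperHalfPlane.isBoundedAtImInfty_iff] at h ⊢
  obtain ⟨M, A, hA⟩ := h
  refine ⟨max M 1, A, fun z hz => ?_⟩
  have h1 := hA z hz
  rw [Pi.pow_apply, norm_pow] at h1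
  rcases le_total ‖f z‖ 1 with h2 | h2
  · exact h2.trans (le_max_right _ _)
  · exact ((le_self_pow₀ h2 hn).trans h1).trans (le_max_left _ _)

/-- An `n`-th root of a form on `Γ₀(N)` is a form with a character of order dividing `n`. -/
theorem exists_twisted_of_pow_eq {k : ℤ} {n : ℕ} (hn : n ≠ 0) {r : ℍ → ℂ} (hr : MDiff r)
    (hne : r ≠ 0) (hinv : ∀ γ : Gamma0 N, (r ^ n) ∣[(n : ℤ) * k] (γ : SL(2, ℤ)) = r ^ n)
    (hbdd : ∀ A : SL(2, ℤ), IsBoundedAtImInfty ((r ^ n) ∣[(n : ℤ) * k] A)) :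
    ∃ χ : Gamma0 N →* ℂˣ, (∀ γ, χ γ ^ n = 1) ∧ IsTwisted χ k r := by
  have h1 : ∀ γ : Gamma0 N, ∃ ζ : ℂˣ, ζ ^ n = 1 ∧ r ∣[k] (γ : SL(2, ℤ)) = (ζ : ℂ) • r := by
    intro γ
    refine exists_eq_smul_of_pow_eq hr (mdifferentiable_slash hr k _) hn ?_ hne
    rw [← pow_slash_SL2, hinv γ]
  choose χ hχn hχ using h1
  obtain ⟨z, hz⟩ := Function.ne_iff.mp hne
  have huniq : ∀ a b : ℂˣ, (a : ℂ) • r = (b : ℂ) • r → a = b := fun a b h => by
    have := congrFun h z
    simp only [Pi.smul_apply, smul_eq_mul] at this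
    exact Units.ext (mul_right_cancel₀ hz this)
  refine ⟨⟨⟨χ, huniq _ _ ?_⟩, fun a b => huniq _ _ ?_⟩, hχn, hr, hχ, fun A => ?_⟩
  · rw [← hχ 1, Units.val_one, one_smul, OneMemClass.coe_one, SlashAction.slash_one]
  · rw [← hχ (a * b), Subgroup.coe_mul, SlashAction.slash_mul, hχ a,
      ModularForm.SL_smul_slash, hχ b, Units.val_mul, mul_smul]
  · refine isBoundedAtImInfty_of_pow hn ?_
    rw [← pow_slash_SL2]
    exact hbdd A

theorem coe_smul_sub_self {γ : SL(2, ℤ)} {τ : ℍ} (hfix : γ • τ = τ) (z : ℍ) :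
    ((γ • z : ℍ) : ℂ) - τ = ((z : ℂ) - τ) / (denom γ z * denom γ τ) := by
  have hz := denom_ne_zero γ z
  have hτ := denom_ne_zero γ τ
  have hd : ((γ 0 0 : ℤ) : ℂ) * (γ 1 1 : ℤ) - ((γ 0 1 : ℤ) : ℂ) * (γ 1 0 : ℤ) = 1 := by
    have := γ.2
    rw [Matrix.det_fin_two] at this
    exact_mod_cast congrArg (fun t : ℤ => (t : ℂ)) this
  conv_lhs => rw [← hfix]
  rw [UpperHalfPlane.coe_specialLinearGroup_apply, UpperHalfPlane.coe_specialLinearGroup_apply]
  simp only [denom] at hz hτ ⊢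
  simp [Matrix.SpecialLinearGroup.coe_GL_coe_matrix] at hz hτ ⊢
  rw [div_sub_div _ _ hz hτ]
  congr 1
  linear_combination ((z : ℂ) - τ) * hd

/-- The multiplier at a fixed point. -/
theorem slash_fixed_point {k : ℤ} {r : ℍ → ℂ} (hr : MDiff r) (hne : r ≠ 0) {γ : SL(2, ℤ)} {c : ℂ}
    (hc : r ∣[k] γ = c • r) {τ : ℍ} (hfix : γ • τ = τ) :
    c = denom γ τ ^ (-(k + 2 * (ordH r τ : ℤ))) := by
  set m := ordH r τ with hm
  obtain ⟨u, hu, hu0, hfac⟩ := exists_factor_pow isOpen_uhpSet (differentiableOn_comp_ofComplex hr)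
    τ.im_pos (k := m) (Nat.cast_analyticOrderNatAt (analyticOrderAt_ne_top_of_ne_zero hr hne τ)).symm
  have hval : ∀ z : ℍ, r z = ((z : ℂ) - τ) ^ m * u z := fun z => by
    simpa [ofComplex_apply] using hfac z z.im_pos
  set L : ℍ → ℂ := fun z =>
    u ((γ • z : ℍ) : ℂ) * denom γ z ^ (-k) * ((denom γ z * denom γ τ) ^ m)⁻¹
  set R : ℍ → ℂ := fun z => c * u z
  have heq : ∀ z : ℍ, z ≠ τ → L z = R z := by
    intro z hz
    have hne' : ((z : ℂ) - τ) ^ m ≠ 0 :=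
      pow_ne_zero _ (sub_ne_zero.mpr fun h => hz (UpperHalfPlane.ext h))
    have h1 := congrFun hc z
    rw [ModularForm.SL_slash_apply, hval, coe_smul_sub_self hfix, div_pow,
      Pi.smul_apply, smul_eq_mul, hval] at h1
    refine mul_left_cancel₀ hne' ?_
    simp only [L, R]
    linear_combination h1
  have hucont : ContinuousAt u (τ : ℂ) :=
    (hu.differentiableAt (isOpen_uhpSet.mem_nhds τ.im_pos)).continuousAt
  have hdc : Continuous fun z : ℍ => denom γ z := by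
    unfold UpperHalfPlane.denom
    fun_prop
  have hg : ContinuousAt (fun z : ℍ => ((γ • z : ℍ) : ℂ)) τ :=
    (UpperHalfPlane.continuous_coe.comp
      (continuous_const_smul ((γ : SL(2, ℤ)) : GL (Fin 2) ℝ))).continuousAt
  have hL : ContinuousAt L τ := by
    refine (ContinuousAt.mul ?_ ?_).mul ?_
    · exact ContinuousAt.comp' (by rw [hfix]; exact hucont) hg
    · exact hdc.continuousAt.zpow₀ (-k) (Or.inl (denom_ne_zero γ τ))
    · exact ((hdc.continuousAt.mul continuousAt_const).pow m).inv₀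
        (pow_ne_zero _ (mul_ne_zero (denom_ne_zero γ τ) (denom_ne_zero γ τ)))
  have hR : ContinuousAt R τ :=
    (ContinuousAt.comp' hucont UpperHalfPlane.continuous_coe.continuousAt).const_mul c
  have : L τ = R τ := tendsto_nhds_unique
    (hL.tendsto.mono_left (nhdsWithin_le_nhds (s := {τ}ᶜ)))
    (Tendsto.congr' (eventually_nhdsWithin_of_forall fun z hz => (heq z hz).symm)
      (hR.tendsto.mono_left nhdsWithin_le_nhds))
  simp only [L, R, hfix] at this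
  have hD := denom_ne_zero γ τ
  refine mul_right_cancel₀ hu0 (this.symm.trans ?_)
  rw [mul_assoc, mul_comm (u _)]
  congr 1
  rw [← zpow_natCast, ← zpow_neg, mul_zpow, ← zpow_add₀ hD, ← zpow_add₀ hD]
  congr 1
  ring

end FermatLib.Modular.Kummer
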