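import Fermat.Prelude.Def_ModularCurve_LaurentCoeff
import Mathlib.LinearAlgebra.Dual.Lemmas
import Mathlib.Algebra.Algebra.Subalgebra.Lattice

/-!
Descent of membership in fields of Laurent series along an extension of coefficient fields.
-/

set_option autoImplicit false

noncomputable section

open HahnSeries ModularCurve

namespace FermatLib.Modular.Kummer

variable {k K : Type*} [Field k] [Field K] [Algebra k K]

/-- Apply a `k`-linear functional to all coefficients. -/
def coeffFunctional (φ : K →ₗ[k] k) : LaurentSeries K →+ LaurentSeries k where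
  toFun x := HahnSeries.map x φ
  map_zero' := by ext; simp
  map_add' x y := by ext; simp

@[simp]
theorem coeffFunctional_coeff (φ : K →ₗ[k] k) (x : LaurentSeries K) (i : ℤ) :
    (coeffFunctional φ x).coeff i = φ (x.coeff i) := rfl

theorem coeffFunctional_mul (φ : K →ₗ[k] k) (g : LaurentSeries k) (x : LaurentSeries K) :
    coeffFunctional φ (coeffMap (algebraMap k K) g * x) = g * coeffFunctional φ x := by
  ext i
  have h1 : (coeffMap (algebraMap k K) g).support ⊆ g.support := fun j hj h0 => hj (by simp [h0])
  have h2 : (coeffFunctional φ x).support ⊆ x.support := fun j hj h0 => hj (by simp [h0])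
  rw [coeffFunctional_coeff, coeff_mul_left' g.isPWO_support h1,
    coeff_mul_right' x.isPWO_support h2, map_sum]
  refine Finset.sum_congr rfl fun ij _ => ?_
  rw [coeffMap_coeff, ← Algebra.smul_def, map_smul, coeffFunctional_coeff, smul_eq_mul]

theorem coeffFunctional_algebraMap_mul (φ : K →ₗ[k] k) (c : K) (g : LaurentSeries k) :
    coeffFunctional φ (algebraMap K (LaurentSeries K) c * coeffMap (algebraMap k K) g)
      = algebraMap k (LaurentSeries k) (φ c) * g := by
  rw [mul_comm, coeffFunctional_mul, mul_comm]
  congr 1
  ext i
  rw [coeffFunctional_coeff, algebraMap_laurentSeries_eq_single,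
    algebraMap_laurentSeries_eq_single]
  rcases eq_or_ne i 0 with rfl | hi
  · simp
  · simp [HahnSeries.coeff_single_of_ne hi]

/-- If a series with coefficients in `k` lies in the field generated over `K` by series with
coefficients in `k`, it lies in the field they generate over `k`. -/
theorem mem_adjoin_of_coeffMap_mem_adjoin (S : Set (LaurentSeries k)) {g : LaurentSeries k}
    (hg : coeffMap (algebraMap k K) g
      ∈ IntermediateField.adjoin K (⇑(coeffMap (algebraMap k K)) '' S)) :
    g ∈ IntermediateField.adjoin k S := by
  obtain ⟨A, hA, B, hB, hAB⟩ := IntermediateField.mem_adjoin_iff_div.mp hg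
  rcases eq_or_ne B 0 with rfl | hB0
  · rw [div_zero] at hAB
    have : g = 0 := by
      ext i
      have := congrArg (fun x : LaurentSeries K => x.coeff i) hAB
      simpa using this
    rw [this]
    exact zero_mem _
  obtain ⟨i, hi⟩ : ∃ i, B.coeff i ≠ 0 := by
    by_contra h
    push Not at h
    exact hB0 (HahnSeries.ext (funext h))
  obtain ⟨φ, hφ⟩ := Submodule.exists_le_ker_of_notMem (K := k)
    (p := (⊥ : Submodule k K)) (v := B.coeff i) (by simpa using hi)
  have hmem : ∀ x ∈ Algebra.adjoin K (⇑(coeffMap (algebraMap k K)) '' S),
      coeffFunctional φ x ∈ IntermediateField.adjoin k S := by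
    intro x hx
    rw [← Subalgebra.mem_toSubmodule, Algebra.adjoin_eq_span] at hx
    suffices ∀ c : K, coeffFunctional φ (algebraMap K (LaurentSeries K) c * x)
        ∈ IntermediateField.adjoin k S by simpa using this 1
    induction hx using Submodule.span_induction with
    | mem y hy =>
      intro c
      have hy' : y ∈ (Submonoid.closure S).map (coeffMap (algebraMap k K)).toMonoidHom := by
        rw [MonoidHom.map_mclosure]
        exact hy
      obtain ⟨m, hm, rfl⟩ := Submonoid.mem_map.mp hy'
      change coeffFunctional φ (algebraMap K (LaurentSeries K) c * coeffMap (algebraMap k K) m)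
        ∈ IntermediateField.adjoin k S
      rw [coeffFunctional_algebraMap_mul]
      refine mul_mem ((IntermediateField.adjoin k S).algebraMap_mem _) ?_
      exact (Submonoid.closure_le.mpr (IntermediateField.subset_adjoin k S) :
        Submonoid.closure S ≤ (IntermediateField.adjoin k S).toSubfield.toSubmonoid) hm
    | zero => intro c; simp
    | add y z _ _ hy hz => intro c; rw [mul_add, map_add]; exact add_mem (hy c) (hz c)
    | smul d y _ hy =>
      intro c
      rw [Algebra.smul_def, ← mul_assoc, ← map_mul]
      exact hy (c * d)
  have hne : coeffFunctional φ B ≠ 0 := fun h0 => hφ.1 (by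
    have := congrArg (fun x : LaurentSeries k => x.coeff i) h0
    simpa using this)
  have heq : g * coeffFunctional φ B = coeffFunctional φ A := by
    rw [← coeffFunctional_mul, hAB, div_mul_cancel₀ A hB0]
  rw [← eq_div_iff hne] at heq
  rw [heq]
  exact div_mem (hmem A hA) (hmem B hB)

/-- The same for the base change of a field of rational Laurent series. -/
theorem mem_laurentBaseChange_of_coeffMap_mem [Algebra ℚ k] [Algebra ℚ K] [IsScalarTower ℚ k K]
    {F₀ : IntermediateField ℚ (LaurentSeries ℚ)} {g : LaurentSeries k}
    (hg : coeffMap (algebraMap k K) g ∈ laurentBaseChange K F₀) :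
    g ∈ laurentBaseChange k F₀ := by
  refine mem_adjoin_of_coeffMap_mem_adjoin (K := K) _ ?_
  rw [Set.image_image]
  have : (fun x => coeffMap (algebraMap k K) (coeffEmb k x)) = ⇑(coeffEmb K) := by
    funext x
    rw [coeffEmb, coeffEmb, coeffMap_coeffMap]
    exact coeffMap_congr (IsScalarTower.algebraMap_eq ℚ k K).symm x
  rw [this]
  exact hg

end FermatLib.Modular.Kummer
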