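import Fermat.Agent.Modular.Kummer.Forms
import Mathlib.RingTheory.RootsOfUnity.PrimitiveRoots
import Fermat.Prelude.Def_ModularCurve_ArithmeticGalois

/-!
The dictionary between places of `ℂ(X₀(N))` and orders of modular forms used by the Kummer map.
-/

set_option autoImplicit false

noncomputable section

open Complex hiding I
open UpperHalfPlane hiding I
open CongruenceSubgroup ModularCurve AlgebraicCurve Function
open scoped Topology MatrixGroups ModularForm Manifold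

namespace FermatLib.Modular.Kummer

/-- The field `ℂ(X₀(N))` of `q`-expansions. -/
abbrev cxField (N : ℕ) : IntermediateField ℂ (LaurentSeries ℂ) :=
  laurentBaseChange ℂ (modularFunctionFieldFull N)

/-- What the Kummer map needs about places of `ℂ(X₀(N))`. -/
structure KummerDictionary (N : ℕ) [NeZero N] where
  pt : ℍ → Place ℂ (cxField N)
  cusp : SL(2, ℤ) → Place ℂ (cxField N)
  ram : ℍ → ℕ
  width : SL(2, ℤ) → ℕ
  cover : ∀ v, (∃ τ, pt τ = v) ∨ ∃ A, cusp A = v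
  ram_pos : ∀ τ, 0 < ram τ
  width_pos : ∀ A, 0 < width A
  width_mem : ∀ A, A * ModularGroup.T ^ (width A : ℤ) * A⁻¹ ∈ Gamma0 N
  width_dvd : ∀ (A : SL(2, ℤ)) (h : ℤ), A * ModularGroup.T ^ h * A⁻¹ ∈ Gamma0 N →
    (width A : ℤ) ∣ h
  ram_spec : ∀ (γ : Gamma0 N) (τ : ℍ), (γ : SL(2, ℤ)) • τ = τ →
    (denom (γ : SL(2, ℤ)) τ ^ (2 : ℤ)) ^ ram τ = 1
  ram_prim : ∀ τ : ℍ, ∃ γ : Gamma0 N, (γ : SL(2, ℤ)) • τ = τ ∧
    IsPrimitiveRoot (denom (γ : SL(2, ℤ)) τ ^ (2 : ℤ)) (ram τ)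
  exists_div : ∀ f : cxField N, ∃ (k : ℤ) (A B : ModularForm (Gamma0 N) k),
    B ≠ 0 ∧ (f : LaurentSeries ℂ) * qL B = qL A
  div_mem : ∀ (k : ℤ) (A B : ModularForm (Gamma0 N) k), qL A / qL B ∈ cxField N
  ord_pt : ∀ (k : ℤ) (A B : ModularForm (Gamma0 N) k) (f : cxField N), A ≠ 0 → B ≠ 0 →
    (f : LaurentSeries ℂ) * qL B = qL A →
    ∀ τ, (ram τ : ℤ) * (pt τ).ord f = (ordH A τ : ℤ) - ordH B τ
  ord_cusp : ∀ (k : ℤ) (A B : ModularForm (Gamma0 N) k) (f : cxField N), A ≠ 0 → B ≠ 0 →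
    (f : LaurentSeries ℂ) * qL B = qL A →
    ∀ g : SL(2, ℤ), (cusp g).ord f =
      (ordInf (width g : ℝ) ((⇑A) ∣[k] g) : ℤ) - ordInf (width g : ℝ) ((⇑B) ∣[k] g)

end FermatLib.Modular.Kummer
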