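import Fermat.Agent.Modular.Kummer.Character
import Fermat.Agent.Modular.Kummer.Dictionary
import Fermat.Agent.Modular.SL2Conj
import Fermat.Agent.Modular.TwistedForms

/-!
The Kummer character of a divisor `D` with `n • D` principal.
-/

set_option autoImplicit false

noncomputable section

open Complex hiding I
open UpperHalfPlane hiding I
open CongruenceSubgroup ModularCurve AlgebraicCurve Function
open scoped Topology MatrixGroups ModularForm Manifold

namespace FermatLib.Modular.Kummer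

variable {N : ℕ}

theorem mdiff_mul_ne_zero {f g : ℍ → ℂ} (hf : MDiff f) (hg : MDiff g) (hf0 : f ≠ 0)
    (hg0 : g ≠ 0) : f * g ≠ 0 := fun h0 => by
  have h1 : analyticOrderAt ((f ∘ ofComplex) * (g ∘ ofComplex)) (UpperHalfPlane.I : ℂ) = ⊤ :=
    analyticOrderAt_eq_top.mpr (Filter.Eventually.of_forall fun z => congrFun h0 (ofComplex z))
  rw [analyticOrderAt_mul (analyticAt_comp_ofComplex hf _) (analyticAt_comp_ofComplex hg _)] at h1
  rcases WithTop.add_eq_top.mp h1 with h2 | h2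
  · exact analyticOrderAt_ne_top_of_ne_zero hf hf0 _ h2
  · exact analyticOrderAt_ne_top_of_ne_zero hg hg0 _ h2

theorem slash_ne_zero {f : ℍ → ℂ} {k : ℤ} (hf : f ≠ 0) (A : SL(2, ℤ)) : f ∣[k] A ≠ 0 := fun h0 =>
  hf <| by
    have h2 := congrArg (fun f => f ∣[k] A⁻¹) h0
    simpa only [← SlashAction.slash_mul, mul_inv_cancel, SlashAction.slash_one,
      SlashAction.zero_slash] using h2

theorem IsTwisted.congr_char {χ χ' : Gamma0 N →* ℂˣ} {k : ℤ} {r : ℍ → ℂ} (h : IsTwisted χ k r)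
    (hχ : ∀ γ, χ γ = χ' γ) : IsTwisted χ' k r :=
  MonoidHom.ext hχ ▸ h

theorem IsTwisted.mul_trivial {χ : Gamma0 N →* ℂˣ} {k k' : ℤ} {r r' : ℍ → ℂ}
    (h : IsTwisted χ k r) (h' : IsTwisted (1 : Gamma0 N →* ℂˣ) k' r') :
    IsTwisted χ (k + k') (r * r') :=
  (h.mul h').congr_char fun γ => by simp

theorem modularForm_coe_ne_zero {Γ : Subgroup (GL (Fin 2) ℝ)} {k : ℤ} {B : ModularForm Γ k}
    (h : B ≠ 0) : (⇑B : ℍ → ℂ) ≠ 0 := fun h0 => h (DFunLike.coe_injective h0)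

theorem even_weight [NeZero N] {k : ℤ} {B : ModularForm (Gamma0 N) k} (h : B ≠ 0) : Even k := by
  obtain ⟨z, hz⟩ := Function.ne_iff.mp (modularForm_coe_ne_zero h)
  have hm : (-1 : SL(2, ℤ)) ∈ Gamma0 N := by simp [Gamma0_mem]
  have h1 := congrFun ((IsTwisted.of_modularForm B).slash ⟨-1, hm⟩) z
  rw [MonoidHom.one_apply, Units.val_one, one_smul, ModularForm.SL_slash_apply,
    ModularGroup.SL_neg_smul, one_smul] at h1
  have h2 : ((-1 : ℂ)) ^ (-k) = 1 := by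
    refine mul_left_cancel₀ (show B z ≠ 0 from hz) ?_
    rw [mul_one]
    simpa [UpperHalfPlane.denom, Matrix.SpecialLinearGroup.coe_GL_coe_matrix] using h1
  rcases Int.even_or_odd k with hk | hk
  · exact hk
  · rw [hk.neg.neg_one_zpow] at h2
    norm_num at h2

/-- A fixed point forces `trace ^ 2 ≤ 4`. -/
theorem trace_sq_le_of_fixed {γ : SL(2, ℤ)} {τ : ℍ} (h : γ • τ = τ) :
    (γ : Matrix (Fin 2) (Fin 2) ℤ).trace ^ 2 ≤ 4 := by
  have hd : γ 0 0 * γ 1 1 - γ 0 1 * γ 1 0 = 1 := by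
    have := γ.2
    rwa [Matrix.det_fin_two] at this
  rw [Matrix.trace_fin_two]
  rcases eq_or_ne (γ 1 0) 0 with h0 | h0
  · rw [h0, mul_zero, sub_zero] at hd
    rcases Int.eq_one_or_neg_one_of_mul_eq_one' hd with ⟨ha, hd'⟩ | ⟨ha, hd'⟩ <;>
      rw [ha, hd'] <;> norm_num
  have hz := congrArg (fun z : ℍ => (z : ℂ)) h
  simp only [UpperHalfPlane.coe_specialLinearGroup_apply, algebraMap_int_eq, Int.coe_castRingHom,
    ofReal_intCast] at hz
  have hden : ((γ 1 0 : ℤ) : ℂ) * τ + (γ 1 1 : ℤ) ≠ 0 := fun h1 => by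
    have h2 := congrArg Complex.im h1
    simp only [add_im, mul_im, intCast_re, intCast_im, zero_mul, add_zero, Complex.zero_im] at h2
    rcases mul_eq_zero.mp h2 with h3 | h3
    · exact h0 (by exact_mod_cast h3)
    · exact τ.im_pos.ne' h3
  rw [div_eq_iff hden] at hz
  have him := congrArg Complex.im hz
  have hre := congrArg Complex.re hz
  simp only [add_im, mul_im, add_re, mul_re, intCast_re, intCast_im, zero_mul, add_zero,
    sub_zero] at him hre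
  have hy := τ.im_pos
  -- `2 c x = a - d` and `- 4 c² y² = (a + d)² - 4`
  have h2 : ((γ 0 0 : ℤ) : ℝ) = 2 * (γ 1 0 : ℤ) * (τ : ℂ).re + (γ 1 1 : ℤ) := by
    refine mul_right_cancel₀ hy.ne' ?_
    show _ * (τ : ℂ).im = _ * (τ : ℂ).im
    linarith
  have hd' : ((γ 0 0 : ℤ) : ℝ) * (γ 1 1 : ℤ) - (γ 0 1 : ℤ) * (γ 1 0 : ℤ) = 1 := by exact_mod_cast hd
  have : (((γ 0 0 : ℤ) : ℝ) + (γ 1 1 : ℤ)) ^ 2 ≤ 4 := by
    have h3 : (((γ 0 0 : ℤ) : ℝ) + (γ 1 1 : ℤ)) ^ 2 =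
        4 - 4 * (((γ 1 0 : ℤ) : ℝ) * (τ : ℂ).im) ^ 2 := by
      linear_combination 4 * hd' + 4 * ((γ 1 0 : ℤ) : ℝ) * hre
        + (((γ 0 0 : ℤ) : ℝ) - (γ 1 1 : ℤ) - 2 * (γ 1 0 : ℤ) * (τ : ℂ).re) * h2
    rw [h3]
    nlinarith [sq_nonneg (((γ 1 0 : ℤ) : ℝ) * (τ : ℂ).im)]
  exact_mod_cast this

variable [NeZero N]

/-- `χ` kills parabolic and elliptic elements. -/
def KillsLE (χ : Gamma0 N →* ℂˣ) : Prop :=
  ∀ γ : Gamma0 N, ((γ : SL(2, ℤ)) : Matrix (Fin 2) (Fin 2) ℤ).trace ^ 2 ≤ 4 → χ γ = 1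

variable (n : ℕ)

/-- `χ` is the Kummer character of the divisor `D`. -/
def IsKummerChar (D : Divisor ℂ (cxField N)) (χ : Gamma0 N →* ℂˣ) : Prop :=
  ∃ (k : ℤ) (A B : ModularForm (Gamma0 N) k) (f : cxField N) (r : ℍ → ℂ),
    A ≠ 0 ∧ B ≠ 0 ∧ (f : LaurentSeries ℂ) * qL B = qL A ∧ (∀ v, v.ord f = (n : ℤ) * D v) ∧
      IsTwisted χ k r ∧ r ^ n = ⇑A * ⇑B ^ (n - 1)

variable {n}

theorem isCuspFn_one {k : ℤ} (A : ModularForm (Gamma0 N) k) : IsCuspFn 1 ⇑A :=
  (IsTwisted.of_modularForm A).isCuspFn_one fun _ => rfl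

theorem qL_ne_zero {k : ℤ} {A : ModularForm (Gamma0 N) k} (h : A ≠ 0) : qL ⇑A ≠ 0 :=
  fun h0 => modularForm_coe_ne_zero h ((qL_eq_zero_iff (isCuspFn_one A)).mp h0)

theorem num_ne_zero {k : ℤ} {A B : ModularForm (Gamma0 N) k} {f : cxField N} (hB : B ≠ 0)
    (h : (f : LaurentSeries ℂ) * qL B = qL A) (hf : f ≠ 0) : A ≠ 0 := by
  rintro rfl
  have h1 : qL (⇑(0 : ModularForm (Gamma0 N) k)) = 0 :=
    (qL_eq_zero_iff (isCuspFn_one _)).mpr rfl
  rw [h1] at h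
  rcases mul_eq_zero.mp h with h2 | h2
  · exact hf (by ext1; exact h2)
  · exact qL_ne_zero hB h2

theorem ne_zero_of_eq {k : ℤ} {A B : ModularForm (Gamma0 N) k} {f : cxField N} (hA : A ≠ 0)
    (h : (f : LaurentSeries ℂ) * qL B = qL A) : f ≠ 0 := by
  rintro rfl
  exact qL_ne_zero hA (by rw [← h]; simp)

theorem isCuspFn_pow_one {f : ℍ → ℂ} (hf : IsCuspFn 1 f) (m : ℕ) : qL (f ^ m) = qL f ^ m := by
  induction m with
  | zero => rw [pow_zero, pow_zero, qL, UpperHalfPlane.qExpansion_one, map_one]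
  | succ m ih => rw [pow_succ, pow_succ, qL_mul (hf.pow m) hf, ih]

theorem IsKummerChar.pow_eq_one {D : Divisor ℂ (cxField N)} {χ : Gamma0 N →* ℂˣ} (hn : n ≠ 0)
    (h : IsKummerChar n D χ) (γ : Gamma0 N) : χ γ ^ n = 1 := by
  obtain ⟨k, A, B, f, r, hA, hB, -, -, hr, hpow⟩ := h
  have hP : ⇑A * ⇑B ^ (n - 1) ≠ 0 := mdiff_mul_ne_zero A.holo' ((isCuspFn_one B).pow _).mdiff
    (modularForm_coe_ne_zero hA) (pow_ne_zero_fun (modularForm_coe_ne_zero hB) _)
  have hinv := ((IsTwisted.of_modularForm A).mul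
    ((IsTwisted.of_modularForm B).pow_trivial (n - 1))).slash γ
  rw [show k + ((n - 1 : ℕ) : ℤ) * k = (n : ℤ) * k by
      rw [Nat.cast_sub (Nat.one_le_iff_ne_zero.mpr hn)]; push_cast; ring,
    ← hpow, pow_slash_SL2, hr.slash, smul_pow, MonoidHom.mul_apply, MonoidHom.one_apply,
    one_mul, Units.val_one, one_smul] at hinv
  obtain ⟨z, hz⟩ := Function.ne_iff.mp hP
  have h2 := congrFun hinv z
  rw [Pi.smul_apply, hpow, smul_eq_mul] at h2
  exact Units.ext (by simpa using mul_right_cancel₀ hz (h2.trans (one_mul _).symm))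

variable (dict : KummerDictionary N)
include dict

theorem exists_isKummerChar (hn : n ≠ 0) {D : Divisor ℂ (cxField N)} {f : cxField N} (hf : f ≠ 0)
    (hD : ∀ v, v.ord f = (n : ℤ) * D v) :
    ∃ χ, KillsLE χ ∧ IsKummerChar n D χ := by
  obtain ⟨k, A, B, hB, hAB⟩ := dict.exists_div f
  have hA : A ≠ 0 := num_ne_zero hB hAB hf
  have hA' := modularForm_coe_ne_zero hA
  have hB' := modularForm_coe_ne_zero hB
  have tA := IsTwisted.of_modularForm A
  have tB := IsTwisted.of_modularForm B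
  have hn1 : ((n - 1 : ℕ) : ℤ) = (n : ℤ) - 1 := by
    rw [Nat.cast_sub (Nat.one_le_iff_ne_zero.mpr hn)]; simp
  set H : ℍ → ℂ := ⇑A * ⇑B ^ (n - 1) with hH
  have tH : IsTwisted (1 : Gamma0 N →* ℂˣ) ((n : ℤ) * k) H := by
    exact (tA.mul_trivial (tB.pow_trivial (n - 1))).cast_weight (by rw [hn1]; ring)
  have hH0 : H ≠ 0 :=
    mdiff_mul_ne_zero tA.mdiff (tB.pow_trivial _).mdiff hA' (pow_ne_zero_fun hB' _)
  have hord : ∀ τ, (ordH H τ : ℤ) = (n : ℤ) * ((dict.ram τ : ℤ) * D (dict.pt τ) + ordH B τ) := by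
    intro τ
    have h1 := dict.ord_pt k A B f hA hB hAB τ
    rw [hD] at h1
    rw [hH, ordH_mul tA.mdiff (tB.pow_trivial _).mdiff hA' (pow_ne_zero_fun hB' _),
      ordH_pow tB.mdiff]
    push_cast
    rw [hn1]
    linear_combination -h1
  obtain ⟨r, hr, hrn⟩ := exists_root_uhp tH.mdiff hH0 hn fun τ =>
    Int.natCast_dvd_natCast.mp ⟨_, hord τ⟩
  have hr0 : r ≠ 0 := fun h0 => hH0 (by rw [← hrn, h0, zero_pow hn])
  obtain ⟨χ, -, tr⟩ := exists_twisted_of_pow_eq (k := k) hn hr hr0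
    (fun γ => by rw [hrn, tH.slash, MonoidHom.one_apply, Units.val_one, one_smul])
    (fun g => by rw [hrn]; exact tH.bdd g)
  refine ⟨χ, ?_, k, A, B, f, r, hA, hB, hAB, hD, tr, hrn⟩
  intro γ hγ
  rcases hγ.lt_or_eq with hlt | heq
  · obtain ⟨τ, hτ⟩ := exists_smul_eq_self_of_trace_sq_lt hlt
    refine char_eq_one_of_fixed tr hr0 tB hB' hτ (dict.ram_spec γ τ hτ)
      ⟨D (dict.pt τ), mul_left_cancel₀ (Nat.cast_ne_zero.mpr hn : (n : ℤ) ≠ 0) ?_⟩
    have h1 := hord τ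
    rw [← hrn, ordH_pow hr] at h1
    push_cast at h1
    linear_combination h1
  · obtain ⟨g, m, hm⟩ := exists_eq_conj_of_trace_sq_eq_four heq
    obtain ⟨j, hj⟩ := dict.width_dvd g m (mem_of_conj_eq γ.2 hm)
    subst hj
    set w := dict.width g
    have hw : (0 : ℝ) < w := by exact_mod_cast dict.width_pos g
    have hmem := dict.width_mem g
    have hHslash : (r ∣[k] g) ^ n = H ∣[(n : ℤ) * k] g := by rw [← pow_slash_SL2, hrn]
    refine char_eq_one_of_parabolic hn tr hr0 (even_weight hB) (dict.width_pos g) hm ?_ ?_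
    · rw [hHslash]
      exact tH.isCuspFn_slash (fun _ => rfl) g hmem
    · have h1 := dict.ord_cusp k A B f hA hB hAB g
      rw [hD] at h1
      have hsplit : H ∣[(n : ℤ) * k] g = ((⇑A) ∣[k] g) * ((⇑B) ∣[k] g) ^ (n - 1) := by
        rw [hH, show (n : ℤ) * k = k + ((n - 1 : ℕ) : ℤ) * k by rw [hn1]; ring,
          ModularForm.mul_slash_SL2, pow_slash_SL2]
      have hcA := tA.isCuspFn_slash (fun _ => rfl) g hmem
      have hcB := tB.isCuspFn_slash (fun _ => rfl) g hmem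
      have hsB := slash_ne_zero (k := k) hB' g
      rw [hHslash, hsplit, ordInf_mul hw hcA (hcB.pow _) (slash_ne_zero hA' g)
        (pow_ne_zero_fun hsB _), ordInf_pow hw hcB hsB]
      refine Int.natCast_dvd_natCast.mp
        ⟨D (dict.cusp g) + (ordInf (w : ℝ) ((⇑B) ∣[k] g) : ℤ), ?_⟩
      push_cast
      rw [hn1]
      linear_combination -h1

omit dict in
theorem IsKummerChar.add {D₁ D₂ : Divisor ℂ (cxField N)}
    {χ₁ χ₂ : Gamma0 N →* ℂˣ} (h₁ : IsKummerChar n D₁ χ₁) (h₂ : IsKummerChar n D₂ χ₂) :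
    IsKummerChar n (D₁ + D₂) (χ₁ * χ₂) := by
  obtain ⟨k₁, A₁, B₁, f₁, r₁, hA₁, hB₁, h1, hD₁, t₁, e₁⟩ := h₁
  obtain ⟨k₂, A₂, B₂, f₂, r₂, hA₂, hB₂, h2, hD₂, t₂, e₂⟩ := h₂
  have hA0 : A₁.mul A₂ ≠ 0 := fun h0 => mdiff_mul_ne_zero A₁.holo' A₂.holo'
    (modularForm_coe_ne_zero hA₁) (modularForm_coe_ne_zero hA₂) (congrArg DFunLike.coe h0)
  have hB0 : B₁.mul B₂ ≠ 0 := fun h0 => mdiff_mul_ne_zero B₁.holo' B₂.holo'
    (modularForm_coe_ne_zero hB₁) (modularForm_coe_ne_zero hB₂) (congrArg DFunLike.coe h0)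
  refine ⟨k₁ + k₂, A₁.mul A₂, B₁.mul B₂, f₁ * f₂, r₁ * r₂, hA0, hB0, ?_, fun v => ?_, t₁.mul t₂,
    ?_⟩
  · show ((f₁ : LaurentSeries ℂ) * (f₂ : LaurentSeries ℂ)) * qL (⇑B₁ * ⇑B₂) = qL (⇑A₁ * ⇑A₂)
    rw [qL_mul (isCuspFn_one _) (isCuspFn_one _), qL_mul (isCuspFn_one _) (isCuspFn_one _),
      ← h1, ← h2]
    ring
  · rw [v.ord_mul (ne_zero_of_eq hA₁ h1) (ne_zero_of_eq hA₂ h2), hD₁, hD₂, Finsupp.add_apply]
    ring
  · show (r₁ * r₂) ^ n = (⇑A₁ * ⇑A₂) * (⇑B₁ * ⇑B₂) ^ (n - 1)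
    rw [mul_pow, e₁, e₂, mul_pow]
    ring

theorem IsKummerChar.eq_one (hn : n ≠ 0) {D : Divisor ℂ (cxField N)} {χ : Gamma0 N →* ℂˣ}
    (h : IsKummerChar n D χ) (hD' : Divisor.IsPrincipal D) : χ = 1 := by
  obtain ⟨k, A, B, f, r, hA, hB, hAB, hD, tr, hpow⟩ := h
  obtain ⟨g, hg, hgD⟩ := hD'
  obtain ⟨l, C, E, hE, hCE⟩ := dict.exists_div g
  have hC : C ≠ 0 := num_ne_zero hE hCE hg
  have hA' := modularForm_coe_ne_zero hA
  have hB' := modularForm_coe_ne_zero hB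
  have hC' := modularForm_coe_ne_zero hC
  have hE' := modularForm_coe_ne_zero hE
  have tA := IsTwisted.of_modularForm A
  have tB := IsTwisted.of_modularForm B
  have tC := IsTwisted.of_modularForm C
  have tE := IsTwisted.of_modularForm E
  have tP := tA.mul_trivial (tE.pow_trivial n)
  have tQ := tB.mul_trivial (tC.pow_trivial n)
  obtain ⟨c, hc, hPQ⟩ := exists_eq_smul_of_ord_le (k := k + (n : ℤ) * l) tP.mdiff tQ.mdiff
    (mdiff_mul_ne_zero tA.mdiff (tE.pow_trivial n).mdiff hA' (pow_ne_zero_fun hE' n))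
    (mdiff_mul_ne_zero tB.mdiff (tC.pow_trivial n).mdiff hB' (pow_ne_zero_fun hC' n))
    (fun γ => by rw [tP.slash, MonoidHom.one_apply, Units.val_one, one_smul])
    (fun γ => by rw [tQ.slash, MonoidHom.one_apply, Units.val_one, one_smul])
    (fun τ => by
      have h1 := dict.ord_pt k A B f hA hB hAB τ
      have h2 := dict.ord_pt l C E g hC hE hCE τ
      rw [hD, hgD] at h1
      rw [ordH_mul tA.mdiff (tE.pow_trivial n).mdiff hA' (pow_ne_zero_fun hE' n),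
        ordH_mul tB.mdiff (tC.pow_trivial n).mdiff hB' (pow_ne_zero_fun hC' n),
        ordH_pow tE.mdiff, ordH_pow tC.mdiff]
      refine le_of_eq (Nat.cast_injective (R := ℤ) ?_)
      push_cast
      linear_combination h1 - (n : ℤ) * h2)
    (fun G => by
      set w := dict.width G
      have hw : (0 : ℝ) < w := by exact_mod_cast dict.width_pos G
      have hm := dict.width_mem G
      have hcA := tA.isCuspFn_slash (fun _ => rfl) G hm
      have hcB := tB.isCuspFn_slash (fun _ => rfl) G hm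
      have hcC := tC.isCuspFn_slash (fun _ => rfl) G hm
      have hcE := tE.isCuspFn_slash (fun _ => rfl) G hm
      refine ⟨w, hw, tP.isCuspFn_slash (fun _ => rfl) G hm, tQ.isCuspFn_slash (fun _ => rfl) G hm,
        ?_⟩
      have h1 := dict.ord_cusp k A B f hA hB hAB G
      have h2 := dict.ord_cusp l C E g hC hE hCE G
      rw [hD, hgD] at h1
      rw [ModularForm.mul_slash_SL2, ModularForm.mul_slash_SL2, pow_slash_SL2, pow_slash_SL2,
        ordInf_mul hw hcA (hcE.pow n) (slash_ne_zero hA' G)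
          (pow_ne_zero_fun (slash_ne_zero hE' G) n),
        ordInf_mul hw hcB (hcC.pow n) (slash_ne_zero hB' G)
          (pow_ne_zero_fun (slash_ne_zero hC' G) n),
        ordInf_pow hw hcE (slash_ne_zero hE' G), ordInf_pow hw hcC (slash_ne_zero hC' G)]
      refine le_of_eq (Nat.cast_injective (R := ℤ) ?_)
      push_cast
      linear_combination h1 - (n : ℤ) * h2)
  obtain ⟨d, hd⟩ := IsAlgClosed.exists_pow_nat_eq c (Nat.pos_of_ne_zero hn)
  set s := r * ⇑E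
  set t := d • (⇑B * ⇑C)
  have ts : IsTwisted χ (k + l) s := tr.mul_trivial tE
  have hr0 : r ≠ 0 := fun h0 => by
    rw [h0, zero_pow hn] at hpow
    exact mdiff_mul_ne_zero tA.mdiff (tB.pow_trivial _).mdiff hA' (pow_ne_zero_fun hB' _) hpow.symm
  have hs0 : s ≠ 0 := mdiff_mul_ne_zero tr.mdiff tE.mdiff hr0 hE'
  have hst : t ^ n = s ^ n := by
    simp only [s, t]
    rw [smul_pow, hd, mul_pow, mul_pow, hpow]
    funext z
    have h1 := congrFun hPQ z
    simp only [Pi.smul_apply, Pi.mul_apply, Pi.pow_apply, smul_eq_mul] at h1 ⊢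
    rw [show n = n - 1 + 1 from (Nat.sub_add_cancel (Nat.one_le_iff_ne_zero.mpr hn)).symm] at h1 ⊢
    simp only [Nat.add_sub_cancel, pow_succ] at h1 ⊢
    linear_combination -(B z ^ (n - 1)) * h1
  obtain ⟨ζ, -, hζ⟩ := exists_eq_smul_of_pow_eq ts.mdiff
    ((tB.mdiff.mul tC.mdiff).const_smul d) hn hst.symm hs0
  refine MonoidHom.ext fun γ => ?_
  obtain ⟨z, hz⟩ := Function.ne_iff.mp hs0
  have h1 : t ∣[k + l] (γ : SL(2, ℤ)) = t := by
    simp only [t]
    rw [ModularForm.SL_smul_slash, (tB.mul_trivial tC).slash]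
    simp
  rw [show t = (ζ : ℂ) • s from hζ, ModularForm.SL_smul_slash, ts.slash] at h1
  have h2 := congrFun h1 z
  simp only [Pi.smul_apply, smul_eq_mul] at h2
  refine Units.ext (mul_right_cancel₀ hz ?_)
  rw [MonoidHom.one_apply, Units.val_one, one_mul]
  exact mul_left_cancel₀ ζ.ne_zero h2

/-- Injectivity: a trivial Kummer character forces a principal divisor. -/
theorem IsKummerChar.isPrincipal (hn : n ≠ 0) {D : Divisor ℂ (cxField N)}
    (h : IsKummerChar n D (1 : Gamma0 N →* ℂˣ)) : Divisor.IsPrincipal D := by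
  obtain ⟨k, A, B, f, r, hA, hB, hAB, hD, tr, hpow⟩ := h
  let R : ModularForm (Gamma0 N) k := tr.toModularForm fun _ => rfl
  refine ⟨⟨qL ⇑R / qL ⇑B, dict.div_mem k R B⟩, ?_, ?_⟩ <;>
  · have hRc : ⇑R = r := rfl
    have hR : qL ⇑R ^ n = qL ⇑A * qL ⇑B ^ (n - 1) := by
      rw [← isCuspFn_pow_one (isCuspFn_one R), ← isCuspFn_pow_one (isCuspFn_one B),
        ← qL_mul (isCuspFn_one A) ((isCuspFn_one B).pow _), hRc, hpow]
    have hB0 := qL_ne_zero hB
    have hf : (⟨qL ⇑R / qL ⇑B, dict.div_mem k R B⟩ : cxField N) ^ n = f := by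
      refine Subtype.ext ?_
      show (qL ⇑R / qL ⇑B) ^ n = (f : LaurentSeries ℂ)
      rw [div_pow, hR, div_eq_iff (pow_ne_zero n hB0), ← hAB, mul_assoc, ← pow_succ',
        Nat.sub_add_cancel (Nat.one_le_iff_ne_zero.mpr hn)]
    set g : cxField N := ⟨qL ⇑R / qL ⇑B, dict.div_mem k R B⟩
    have hg : g ≠ 0 := fun h0 => ne_zero_of_eq hA hAB (by rw [← hf, h0, zero_pow hn])
    first
    | exact hg
    | intro v
      have h1 := hD v
      rw [← hf, show (g ^ n) = g ^ (n : ℤ) from (zpow_natCast g n).symm, v.ord_zpow] at h1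
      exact (mul_left_cancel₀ (Nat.cast_ne_zero.mpr hn) h1).symm

/-- Surjectivity. -/
theorem exists_divisor_isKummerChar [HasPrincipalDivisors ℂ (cxField N)] (hn : n ≠ 0)
    {χ : Gamma0 N →* ℂˣ} (hχn : ∀ γ, χ γ ^ n = 1) (hχ : KillsLE χ) :
    ∃ D : Divisor ℂ (cxField N), Divisor.degree D = 0 ∧ IsKummerChar n D χ := by
  have hp : KillsParabolic χ := fun γ h => hχ γ h.le
  have hu := norm_eq_one_of_pow_eq_one hn hχn
  have hk : (3 : ℤ) ≤ 4 := by norm_num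
  set r := twistedEis χ 4
  have hr0 : r ≠ 0 := twistedEis_ne_zero hp hu hk ⟨2, rfl⟩
  have tr : IsTwisted χ 4 r := ⟨mdifferentiable_twistedEis hu hk, twistedEis_slash hp 4,
    isBoundedAtImInfty_twistedEis_slash hu hk⟩
  obtain ⟨G, hG⟩ := exists_modularForm_eq_pow (k := 4) hn hχn tr.mdiff tr.slash tr.bdd
  have t0 : IsTwisted (1 : Gamma0 N →* ℂˣ) 4 ⇑ModularForm.E₄ :=
    ⟨ModularForm.E₄.holo', fun γ => by
      rw [MonoidHom.one_apply, Units.val_one, one_smul, ModularForm.SL_slash]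
      exact ModularForm.E₄.slash_action_eq' _ ⟨γ, rfl⟩,
      fun A => ModularFormClass.bdd_at_infty_slash ModularForm.E₄ A⟩
  have hE0 : (⇑ModularForm.E₄ : ℍ → ℂ) ≠ 0 :=
    modularForm_coe_ne_zero (EisensteinSeries.E_ne_zero _ ⟨2, rfl⟩)
  set B0 : ℍ → ℂ := ⇑ModularForm.E₄
  set B : ModularForm (Gamma0 N) ((n : ℤ) * 4) := (t0.pow_trivial n).toModularForm fun _ => rfl
  have hBc : ⇑B = B0 ^ n := rfl
  have hB : B ≠ 0 := fun h0 => pow_ne_zero_fun hE0 n (by rw [← hBc, h0]; rfl)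
  have hGn : G ≠ 0 := fun h0 => pow_ne_zero_fun hr0 n (by rw [← hG, h0]; rfl)
  set f : cxField N := ⟨qL ⇑G / qL ⇑B, dict.div_mem _ G B⟩
  have hAB : (f : LaurentSeries ℂ) * qL ⇑B = qL ⇑G := div_mul_cancel₀ _ (qL_ne_zero hB)
  obtain ⟨Df, hDf, hdeg⟩ : ∃ Df : Divisor ℂ (cxField N),
      (∀ v : Place ℂ (cxField N), Df v = v.ord f) ∧ Divisor.degree Df = 0 :=
    HasPrincipalDivisors.exists_divisor f (ne_zero_of_eq hGn hAB)
  have hdvd : ∀ v, (n : ℤ) ∣ Df v := by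
    intro v
    rw [hDf]
    rcases dict.cover v with ⟨τ, rfl⟩ | ⟨g, rfl⟩
    · obtain ⟨γ, hfix, hprim⟩ := dict.ram_prim τ
      have h1 := char_eq_zpow_of_fixed tr hr0 t0 hE0 hfix
      rw [hχ γ (trace_sq_le_of_fixed hfix), Units.val_one] at h1
      obtain ⟨j, hj⟩ := (hprim.zpow_eq_one_iff_dvd _).mp h1.symm
      have h2 := dict.ord_pt _ G B f hGn hB hAB τ
      rw [hG, hBc, ordH_pow tr.mdiff, ordH_pow t0.mdiff] at h2
      have he : (dict.ram τ : ℤ) ≠ 0 := Nat.cast_ne_zero.mpr (dict.ram_pos τ).ne'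
      refine ⟨-j, mul_left_cancel₀ he ?_⟩
      push_cast at h2
      linear_combination h2 - (n : ℤ) * hj
    · have h2 := dict.ord_cusp _ G B f hGn hB hAB g
      set w := dict.width g
      have hw : (0 : ℝ) < w := by exact_mod_cast dict.width_pos g
      have hm := dict.width_mem g
      have hcr : IsCuspFn (w : ℝ) (r ∣[(4 : ℤ)] g) := by
        refine ⟨periodic_comp_ofComplex_of_vadd fun z => ?_, mdifferentiable_slash tr.mdiff _ _,
          tr.bdd g⟩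
        have h3 := congrFun (slash_slash_T_zpow hp tr.slash g hm) z
        rw [slash_T_zpow_apply] at h3
        simpa using h3
      rw [hG, hBc, pow_slash_SL2, pow_slash_SL2, ordInf_pow hw hcr (slash_ne_zero hr0 g),
        ordInf_pow hw (t0.isCuspFn_slash (fun _ => rfl) g hm) (slash_ne_zero hE0 g)] at h2
      refine ⟨(ordInf (w : ℝ) (r ∣[(4 : ℤ)] g) : ℤ) - ordInf (w : ℝ) (B0 ∣[(4 : ℤ)] g), ?_⟩
      push_cast at h2
      rw [h2]
      ring
  set D : Divisor ℂ (cxField N) := Df.mapRange (fun a => a / (n : ℤ)) (Int.zero_ediv _)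
  have hD : ∀ v, Df v = (n : ℤ) * D v := fun v => by
    rw [Finsupp.mapRange_apply, Int.mul_ediv_cancel' (hdvd v)]
  refine ⟨D, ?_, (n : ℤ) * 4, G, B, f, r * B0 ^ (n - 1), hGn, hB, hAB,
    fun v => by rw [← hDf, hD], ?_, ?_⟩
  · have : Df = n • D := Finsupp.ext fun v => by rw [hD, Finsupp.smul_apply, nsmul_eq_mul]
    rw [this, map_nsmul, nsmul_eq_mul] at hdeg
    exact (mul_eq_zero.mp hdeg).resolve_left (Nat.cast_ne_zero.mpr hn)
  · have h := tr.mul_trivial (t0.pow_trivial (n - 1))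
    refine h.cast_weight ?_
    rw [Nat.cast_sub (Nat.one_le_iff_ne_zero.mpr hn)]
    push_cast
    ring
  · rw [mul_pow, ← hG, hBc, ← pow_mul, ← pow_mul, mul_comm n (n - 1)]

end FermatLib.Modular.Kummer
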