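import Fermat.Agent.Modular.Kummer.KummerBar
import Fermat.Prelude.Def_ModularCurve_PeriodHomPair
import Fermat.Prelude.Def_GaloisRep_ComplexConjugation
import Fermat.Prelude.Def_ModularCurve_X0ModL

/-!
Complex conjugation on `J₀(N)[n] ≅ Hom_cusp(Γ₀(N), μₙ)`: it is `φ ↦ -φ ∘ (conjugation by J)`.
-/

set_option autoImplicit false

noncomputable section

open Complex hiding I
open UpperHalfPlane hiding I
open CongruenceSubgroup ModularCurve ModularCurve.Period AlgebraicCurve Function
open scoped Topology MatrixGroups ModularForm Manifold ComplexConjugate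

namespace FermatLib.Modular.Kummer

variable {N : ℕ}

/-- The character `γ ↦ conj (χ (J γ J))`. -/
def conjChar (χ : Gamma0 N →* ℂˣ) : Gamma0 N →* ℂˣ :=
  (Units.map (starRingEnd ℂ).toMonoidHom).comp (χ.comp (jConjGamma0 N))

theorem conjChar_apply (χ : Gamma0 N →* ℂˣ) (γ : Gamma0 N) :
    (conjChar χ γ : ℂ) = conj (χ (jConjGamma0 N γ) : ℂ) := rfl

theorem J_mul_mapGL (A : SL(2, ℤ)) :
    UpperHalfPlane.J * Matrix.SpecialLinearGroup.mapGL ℝ A
      = Matrix.SpecialLinearGroup.mapGL ℝ (jConjSL A) * UpperHalfPlane.J := by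
  apply Units.ext
  ext i j
  fin_cases i <;> fin_cases j <;>
    simp [Units.val_mul, Matrix.mul_apply, Fin.sum_univ_two, jConjMat]

theorem slash_J_apply (f : ℍ → ℂ) (k : ℤ) (τ : ℍ) :
    (f ∣[k] UpperHalfPlane.J) τ = conj (f (UpperHalfPlane.J • τ)) := by
  simp [ModularForm.slash_def]

theorem slash_J_slash (f : ℍ → ℂ) (k : ℤ) (A : SL(2, ℤ)) :
    (f ∣[k] UpperHalfPlane.J) ∣[k] A = (f ∣[k] jConjSL A) ∣[k] UpperHalfPlane.J := by
  rw [ModularForm.SL_slash, ModularForm.SL_slash, ← SlashAction.slash_mul,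
    ← SlashAction.slash_mul]
  exact congrArg (f ∣[k] ·) (J_mul_mapGL A)

theorem IsTwisted.slash_J {χ : Gamma0 N →* ℂˣ} {k : ℤ} {r : ℍ → ℂ} (h : IsTwisted χ k r) :
    IsTwisted (conjChar χ) k (r ∣[k] UpperHalfPlane.J) where
  mdiff := h.mdiff.slash k _
  slash γ := by
    rw [slash_J_slash, ← jConjGamma0_coe, h.slash]
    funext τ
    rw [slash_J_apply, Pi.smul_apply, Pi.smul_apply, slash_J_apply, conjChar_apply, smul_eq_mul,
      smul_eq_mul, map_mul]
  bdd A := by
    rw [slash_J_slash]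
    obtain ⟨M, C, hMC⟩ := UpperHalfPlane.isBoundedAtImInfty_iff.mp (h.bdd (jConjSL A))
    refine UpperHalfPlane.isBoundedAtImInfty_iff.mpr ⟨M, C, fun z hz => ?_⟩
    rw [slash_J_apply, Complex.norm_conj]
    refine hMC _ ?_
    have : (UpperHalfPlane.J • z).im = z.im := by
      rw [← UpperHalfPlane.coe_im, UpperHalfPlane.coe_J_smul]
      simp
    rwa [this]

theorem qExpansion_slash_J {f : ℍ → ℂ} {k : ℤ} (hf : IsCuspFn 1 f)
    (hfJ : IsCuspFn 1 (f ∣[k] UpperHalfPlane.J)) :
    qExpansion 1 (f ∣[k] UpperHalfPlane.J) = (qExpansion 1 f).map (starRingEnd ℂ) := by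
  refine PowerSeries.ext fun m => ?_
  rw [PowerSeries.coeff_map]
  suffices H : ∀ g : ℍ → ℂ, IsCuspFn 1 g → (∀ τ, g τ = conj (f (UpperHalfPlane.J • τ))) →
      (qExpansion 1 g).coeff m = conj ((qExpansion 1 f).coeff m) from H _ hfJ (slash_J_apply f k)
  intro g hg hgf
  refine (UpperHalfPlane.qExpansion_coeff_unique (ContinuousMap.mk g hg.mdiff.continuous) (c := fun m => conj ((qExpansion 1 f).coeff m))
    one_pos (hg.analyticAt one_pos) (fun τ => ?_) m).symm
  have h1 := (UpperHalfPlane.hasSum_qExpansion one_pos hf.per hf.mdiff hf.bdd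
    (UpperHalfPlane.J • τ)).map (starRingEnd ℂ) Complex.continuous_conj
  rw [ContinuousMap.coe_mk, hgf]
  convert h1 using 2 with m
  have hq : conj (Periodic.qParam 1 ((UpperHalfPlane.J • τ : ℍ) : ℂ))
      = Periodic.qParam 1 (τ : ℂ) := by
    rw [Periodic.qParam, Periodic.qParam, ← Complex.exp_conj, UpperHalfPlane.coe_J_smul]
    congr 1
    simp [map_ofNat]
  simp only [Function.comp_apply, smul_eq_mul, map_mul, map_pow, hq]

theorem qL_slash_J {f : ℍ → ℂ} {k : ℤ} (hf : IsCuspFn 1 f)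
    (hfJ : IsCuspFn 1 (f ∣[k] UpperHalfPlane.J)) :
    qL (f ∣[k] UpperHalfPlane.J) = coeffMap (starRingEnd ℂ) (qL f) := by
  rw [qL, qExpansion_slash_J hf hfJ]
  exact (coeffMap_ofPowerSeries (starRingEnd ℂ) _).symm

variable [NeZero N] {n : ℕ}

/-- Complex conjugation on Kummer characters. -/
theorem IsKummerChar.conj {D : Divisor ℂ (cxField N)} {χ : Gamma0 N →* ℂˣ}
    (h : IsKummerChar n D χ) :
    IsKummerChar n (arithmeticGalois (modularFunctionFieldFull N) complexConjAlgEquiv • D)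
      (conjChar χ) := by
  obtain ⟨k, A, B, f, r, hA, hB, hAB, hD, hr, hpow⟩ := h
  have h1 : ∀ γ : Gamma0 N, conjChar (1 : Gamma0 N →* ℂˣ) γ = 1 := fun γ => by
    ext; simp [conjChar_apply]
  have hAt := (IsTwisted.of_modularForm A).slash_J
  have hBt := (IsTwisted.of_modularForm B).slash_J
  set g := arithmeticGalois (modularFunctionFieldFull N) complexConjAlgEquiv
  have hne : ∀ {P : ModularForm (Gamma0 N) k} (hPt : IsTwisted (conjChar 1) k
      (⇑P ∣[k] UpperHalfPlane.J)), P ≠ 0 → hPt.toModularForm h1 ≠ 0 := fun {P} hPt hP h0 => hP <| by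
    ext τ
    have h2 := congrArg (fun Q : ModularForm (Gamma0 N) k => Q (UpperHalfPlane.J • τ)) h0
    simp only [IsTwisted.coe_toModularForm, zero_apply, slash_J_apply, ← mul_smul,
      ← sq, UpperHalfPlane.J_sq, one_smul, map_eq_zero] at h2
    exact h2
  refine ⟨k, hAt.toModularForm h1, hBt.toModularForm h1, g • f, r ∣[k] UpperHalfPlane.J,
    hne hAt hA, hne hBt hB, ?_, fun v => ?_, hr.slash_J, ?_⟩
  · rw [IsTwisted.coe_toModularForm, IsTwisted.coe_toModularForm,
      qL_slash_J (isCuspFn_one A) (hAt.isCuspFn_one h1),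
      qL_slash_J (isCuspFn_one B) (hBt.isCuspFn_one h1), coe_arithmeticGalois_smul, ← hAB, map_mul]
    rfl
  · rw [SemilinearAut.divisor_smul_apply, ← hD, ← SemilinearAut.ord_smul g (g⁻¹ • v) f,
      smul_inv_smul]
  · funext τ
    simp only [IsTwisted.coe_toModularForm, Pi.pow_apply, Pi.mul_apply, slash_J_apply, ← map_pow,
      ← map_mul]
    exact congrArg (starRingEnd ℂ) (congrFun hpow _)

theorem toMul_neg_muC (a : muC n) :
    (((Additive.toMul (-a) : rootsOfUnity n ℂ) : ℂˣ) : ℂ)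
      = (((Additive.toMul a : rootsOfUnity n ℂ) : ℂˣ) : ℂ)⁻¹ := by
  simp

variable [NeZero n]

theorem conj_toMul_muC (a : muC n) :
    conj (((Additive.toMul a : rootsOfUnity n ℂ) : ℂˣ) : ℂ)
      = (((Additive.toMul (-a) : rootsOfUnity n ℂ) : ℂˣ) : ℂ) := by
  rw [toMul_neg_muC]
  refine (Complex.inv_eq_conj (Complex.norm_eq_one_of_pow_eq_one (n := n) ?_ (NeZero.ne n))).symm
  rw [← Units.val_pow_eq_pow_val, (_root_.mem_rootsOfUnity n _).mp (Additive.toMul a).2, Units.val_one]

attribute [local instance] Curve.qbarAlgebraComplex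

/-- Complex conjugation on `J₀(N)[n]` is `φ ↦ -φ(J · J)` on cuspidal homomorphisms. -/
theorem kummerEquiv_complexConj
    (x : Pic0.torsion (AlgebraicClosure ℚ) (modularFunctionFieldBar N) n) (γ : Gamma0 N) :
    (kummerEquiv N n (JZero.torsionGaloisRep N n complexConjugation x)).1 (Additive.ofMul γ)
      = -(kummerEquiv N n x).1 (Additive.ofMul (jConjGamma0 N γ)) := by
  obtain ⟨D, hD⟩ := Pic0.mk_surjective (barTorsionMap N n x : Pic0 ℂ (cxField N))
  set g := arithmeticGalois (modularFunctionFieldFull N) complexConjAlgEquiv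
  let φ : Additive (Gamma0 N) →+ muC n :=
    -((kummerEquiv N n x).1.comp (MonoidHom.toAdditive (jConjGamma0 N)))
  have hφ : toChar φ = conjChar (toChar (kummerEquiv N n x).1) :=
    MonoidHom.ext fun δ => Units.ext ((conj_toMul_muC _).symm)
  have hD' : Pic0.mk (SemilinearAut.degZeroSMulHom g D) = (barTorsionMap N n (JZero.torsionGaloisRep N n complexConjugation x)
      : Pic0 ℂ (cxField N)) := by
    rw [← SemilinearAut.pic0_smul_mk, hD, coe_barTorsionMap, coe_barTorsionMap,
      JZero.coe_torsionGaloisRep_apply, galois_smul_pic0_def]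
    exact (constExtBar N).smul_pic0Map _ _ (Curve.conj_smul_barToComplex N) _
  have hK := (isKummerChar_kummerCx (barTorsionMap N n x) hD).conj
  rw [← kummerEquiv_apply, ← hφ] at hK
  have hK' := (isKummerChar_kummerCx _ hD')
  rw [← kummerEquiv_apply] at hK'
  have h := hK'.unique (χ' := toChar φ) hK (by
    rw [SemilinearAut.coe_degZeroSMulHom, sub_self]; exact Divisor.principal.zero_mem)
  exact DFunLike.congr_fun (toChar_injective h) (Additive.ofMul γ)

end FermatLib.Modular.Kummer
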