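import Fermat.Agent.Modular.Kummer.Cusp

/-!
The character of a root of a modular form is trivial on elliptic and parabolic elements.
-/

set_option autoImplicit false

noncomputable section

open Complex hiding I
open UpperHalfPlane hiding I
open CongruenceSubgroup Filter Function
open scoped Topology MatrixGroups ModularForm Manifold

namespace FermatLib.Modular.Kummer

variable {N : ℕ}

/-- An element of trace square `< 4` has a fixed point in `ℍ`. -/
theorem exists_smul_eq_self_of_trace_sq_lt {γ : SL(2, ℤ)}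
    (h : (γ : Matrix (Fin 2) (Fin 2) ℤ).trace ^ 2 < 4) : ∃ τ : ℍ, γ • τ = τ := by
  rw [Matrix.trace_fin_two] at h
  have hd : γ 0 0 * γ 1 1 - γ 0 1 * γ 1 0 = 1 := by
    have := γ.2
    rwa [Matrix.det_fin_two] at this
  set a := γ 0 0 with ha
  set b := γ 0 1 with hb
  set c := γ 1 0 with hc
  set d := γ 1 1 with hd'
  have hc0 : c ≠ 0 := by
    intro h0
    have h1 : a * d = 1 := by rw [h0, mul_zero, sub_zero] at hd; exact hd
    rcases Int.eq_one_or_neg_one_of_mul_eq_one' h1 with ⟨ha', hd''⟩ | ⟨ha', hd''⟩ <;>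
      rw [ha', hd''] at h <;> norm_num at h
  have hs : (0 : ℝ) < 4 - ((a + d : ℤ) : ℝ) ^ 2 := by
    have : (((a + d) ^ 2 : ℤ) : ℝ) < ((4 : ℤ) : ℝ) := by exact_mod_cast h
    push_cast at this ⊢
    linarith
  set s := Real.sqrt (4 - ((a + d : ℤ) : ℝ) ^ 2) with hs'
  have hs0 : 0 < s := Real.sqrt_pos.mpr hs
  have hs2 : (s : ℂ) ^ 2 = 4 - ((a : ℂ) + d) ^ 2 := by
    rw [← ofReal_pow, hs', Real.sq_sqrt hs.le]
    push_cast
    ring
  set w : ℂ := ((a : ℂ) - d) / (2 * c) + ((s / (2 * |(c : ℝ)|) : ℝ) : ℂ) * Complex.I with hw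
  have hc0' : (c : ℂ) ≠ 0 := by exact_mod_cast hc0
  have hcR : (c : ℝ) ≠ 0 := by exact_mod_cast hc0
  have hwim : 0 < w.im := by
    have h1 : (((a : ℂ) - d) / (2 * c)).im = 0 := by simp [Complex.div_im]
    rw [hw, Complex.add_im, h1, zero_add]
    simp only [mul_im, ofReal_re, Complex.I_im, ofReal_im, Complex.I_re, mul_one, mul_zero, add_zero]
    positivity
  have hquad : (c : ℂ) * w ^ 2 + ((d : ℂ) - a) * w - b = 0 := by
    have h2 : (2 * (c : ℂ) * w - ((a : ℂ) - d)) ^ 2 = -(s : ℂ) ^ 2 := by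
      have habs : ((|(c : ℝ)| : ℝ) : ℂ) ^ 2 = (c : ℂ) ^ 2 := by
        rw [← ofReal_pow, sq_abs]
        push_cast
        ring
      have habs0 : ((|(c : ℝ)| : ℝ) : ℂ) ≠ 0 := by simpa using hc0
      rw [hw]
      push_cast
      field_simp
      linear_combination (s : ℂ) ^ 2 * (c : ℂ) ^ 2 * I_sq + (s : ℂ) ^ 2 * habs
    have hd2 : (a : ℂ) * d - (b : ℂ) * c = 1 := by exact_mod_cast hd
    refine (mul_eq_zero.mp (?_ : (4 * (c : ℂ)) * _ = 0)).resolve_left (by simp [hc0])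
    linear_combination h2 - hs2 + 4 * hd2
  refine ⟨⟨w, hwim⟩, UpperHalfPlane.ext ?_⟩
  rw [UpperHalfPlane.coe_specialLinearGroup_apply]
  simp only [algebraMap_int_eq, Int.coe_castRingHom, ofReal_intCast, ← ha, ← hb, ← hc, ← hd']
  have hden : (c : ℂ) * w + d ≠ 0 := fun h0 => by
    have h1 := congrArg Complex.im h0
    simp only [add_im, mul_im, intCast_re, intCast_im, zero_mul, add_zero, Complex.zero_im] at h1
    rcases mul_eq_zero.mp h1 with h2 | h2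
    · exact hcR h2
    · exact hwim.ne' h2
  rw [div_eq_iff hden]
  linear_combination -hquad

/-- Comparison of the multipliers of two forms of the same weight at a fixed point. -/
theorem char_eq_zpow_of_fixed {χ : Gamma0 N →* ℂˣ} {k : ℤ} {r B : ℍ → ℂ}
    (hr : IsTwisted χ k r) (hr0 : r ≠ 0) (hB : IsTwisted (1 : Gamma0 N →* ℂˣ) k B) (hB0 : B ≠ 0)
    {γ : Gamma0 N} {τ : ℍ} (hfix : (γ : SL(2, ℤ)) • τ = τ) :
    (χ γ : ℂ) = (denom (γ : SL(2, ℤ)) τ ^ (2 : ℤ)) ^ ((ordH B τ : ℤ) - ordH r τ) := by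
  have h1 := slash_fixed_point hr.mdiff hr0 (hr.slash γ) hfix
  have h2 := slash_fixed_point hB.mdiff hB0 (hB.slash γ) hfix
  have hD := denom_ne_zero (γ : SL(2, ℤ)) τ
  rw [MonoidHom.one_apply, Units.val_one] at h2
  calc (χ γ : ℂ) = (χ γ : ℂ) / 1 := (div_one _).symm
    _ = _ := by
        rw [h1, h2, ← zpow_sub₀ hD, ← zpow_mul]
        congr 1
        ring

/-- Triviality at a fixed point. -/
theorem char_eq_one_of_fixed {χ : Gamma0 N →* ℂˣ} {k : ℤ} {r B : ℍ → ℂ}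
    (hr : IsTwisted χ k r) (hr0 : r ≠ 0) (hB : IsTwisted (1 : Gamma0 N →* ℂˣ) k B) (hB0 : B ≠ 0)
    {γ : Gamma0 N} {τ : ℍ} (hfix : (γ : SL(2, ℤ)) • τ = τ) {e : ℕ}
    (he : (denom (γ : SL(2, ℤ)) τ ^ (2 : ℤ)) ^ e = 1)
    (hdvd : (e : ℤ) ∣ (ordH r τ : ℤ) - ordH B τ) : χ γ = 1 := by
  obtain ⟨j, hj⟩ := hdvd
  refine Units.ext ?_
  rw [char_eq_zpow_of_fixed hr hr0 hB hB0 hfix, Units.val_one,
    show (ordH B τ : ℤ) - ordH r τ = (e : ℤ) * (-j) by rw [mul_neg, ← hj]; ring,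
    zpow_mul, zpow_natCast, he, one_zpow]

theorem IsTwisted.neg_one {χ : Gamma0 N →* ℂˣ} {k : ℤ} {r : ℍ → ℂ} (hr : IsTwisted χ k r)
    (hr0 : r ≠ 0) (hk : Even k) {γ : Gamma0 N} (hγ : (γ : SL(2, ℤ)) = -1) : χ γ = 1 := by
  obtain ⟨z, hz⟩ := Function.ne_iff.mp hr0
  have h1 := congrFun (hr.slash γ) z
  rw [hγ, ModularForm.SL_slash_apply, ModularGroup.SL_neg_smul, one_smul, Pi.smul_apply,
    smul_eq_mul] at h1
  have h2 : denom ((-1 : SL(2, ℤ)) : GL (Fin 2) ℝ) (z : ℂ) ^ (-k) = 1 := by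
    obtain ⟨j, rfl⟩ := hk
    simp [UpperHalfPlane.denom, Matrix.SpecialLinearGroup.coe_GL_coe_matrix, ← two_mul,
      zpow_neg, zpow_mul]
  rw [h2, mul_one] at h1
  exact Units.ext (mul_right_cancel₀ hz (by simpa using h1.symm))

theorem mem_of_conj_eq {γ A : SL(2, ℤ)} {h : ℤ} (hγ : γ ∈ Gamma0 N)
    (h1 : γ = A * ModularGroup.T ^ h * A⁻¹ ∨ γ = -(A * ModularGroup.T ^ h * A⁻¹)) :
    A * ModularGroup.T ^ h * A⁻¹ ∈ Gamma0 N := by
  rcases h1 with h1 | h1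
  · exact h1 ▸ hγ
  · have : (-γ : SL(2, ℤ)) ∈ Gamma0 N := by
      rw [Gamma0_mem] at hγ ⊢
      rw [Matrix.SpecialLinearGroup.coe_neg, Matrix.neg_apply, Int.cast_neg, hγ, neg_zero]
    rwa [h1, neg_neg] at this

/-- Triviality on parabolic elements: `w` is the width of the cusp `A ∞`. -/
theorem char_eq_one_of_parabolic {χ : Gamma0 N →* ℂˣ} {k : ℤ} {r : ℍ → ℂ} {n : ℕ}
    (hn : n ≠ 0) (hr : IsTwisted χ k r) (hr0 : r ≠ 0) (hk : Even k) {γ : Gamma0 N} {A : SL(2, ℤ)}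
    {w : ℕ} {j : ℤ} (hw : 0 < w)
    (hγ : (γ : SL(2, ℤ)) = A * ModularGroup.T ^ ((w : ℤ) * j) * A⁻¹ ∨
      (γ : SL(2, ℤ)) = -(A * ModularGroup.T ^ ((w : ℤ) * j) * A⁻¹))
    (hcusp : IsCuspFn (w : ℝ) ((r ∣[k] A) ^ n))
    (hdvd : n ∣ ordInf (w : ℝ) ((r ∣[k] A) ^ n)) : χ γ = 1 := by
  set F := r ∣[k] A with hF
  have hF0 : F ≠ 0 := fun h0 => hr0 <| by
    have h2 := congrArg (fun f => f ∣[k] A⁻¹) h0
    simpa only [hF, ← SlashAction.slash_mul, mul_inv_cancel, SlashAction.slash_one,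
      SlashAction.zero_slash] using h2
  have hper := periodic_of_pow (w := (w : ℝ)) (by exact_mod_cast hw) hn
    (mdifferentiable_slash hr.mdiff k A) hF0 hcusp hdvd
  have hinv : F ∣[k] (ModularGroup.T ^ ((w : ℤ) * j)) = F := by
    funext z
    rw [slash_T_zpow_apply]
    have h2 := (periodic_comp_ofComplex_of_vadd hper).int_mul j (z : ℂ)
    simp only [comp_apply, ofComplex_apply, ← hF] at h2
    rw [← h2]
    congr 1
    refine UpperHalfPlane.ext ?_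
    rw [ofComplex_apply_of_im_pos (by simpa using z.im_pos), UpperHalfPlane.coe_vadd]
    push_cast
    ring
  set δ : Gamma0 N := ⟨A * ModularGroup.T ^ ((w : ℤ) * j) * A⁻¹, mem_of_conj_eq γ.2 hγ⟩
  have hδ : χ δ = 1 := by
    obtain ⟨z, hz⟩ := Function.ne_iff.mp hr0
    have h2 : r ∣[k] (δ : SL(2, ℤ)) = r := by
      show r ∣[k] (A * ModularGroup.T ^ ((w : ℤ) * j) * A⁻¹) = r
      rw [SlashAction.slash_mul, SlashAction.slash_mul, hinv, hF, ← SlashAction.slash_mul,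
        mul_inv_cancel, SlashAction.slash_one]
    have h3 := congrFun ((hr.slash δ).symm.trans h2) z
    exact Units.ext (mul_right_cancel₀ hz (by simpa using h3))
  rcases hγ with h | h
  · rwa [show γ = δ from Subtype.ext h]
  · have hm : (-1 : SL(2, ℤ)) ∈ Gamma0 N := by
      rw [Gamma0_mem, Matrix.SpecialLinearGroup.coe_neg, Matrix.neg_apply]
      simp
    rw [show γ = ⟨-1, hm⟩ * δ from Subtype.ext (by
        rw [h, Subgroup.coe_mul]
        simp [δ]),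
      map_mul, hδ, hr.neg_one hr0 hk rfl, one_mul]

end FermatLib.Modular.Kummer
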