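import Fermat.Agent.Modular.Kummer.Twisted
import Mathlib.NumberTheory.ModularForms.QExpansion

/-!
Orders at infinity and periodicity of roots of periodic functions.
-/

set_option autoImplicit false

noncomputable section

open Complex hiding I
open UpperHalfPlane hiding I
open Filter Function
open scoped Topology MatrixGroups ModularForm Manifold

namespace FermatLib.Modular.Kummer

/-- Holomorphic on `ℍ`, `w`-periodic and bounded at `i∞`. -/
structure IsCuspFn (w : ℝ) (f : ℍ → ℂ) : Prop where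
  per : Periodic (f ∘ ofComplex) (w : ℂ)
  mdiff : MDiff f
  bdd : IsBoundedAtImInfty f

/-- Order at `i∞` in the parameter `exp (2πiτ/w)`. -/
def ordInf (w : ℝ) (f : ℍ → ℂ) : ℕ := analyticOrderNatAt (cuspFunction w f) 0

theorem IsCuspFn.analyticAt {w : ℝ} {f : ℍ → ℂ} (h : IsCuspFn w f) (hw : 0 < w) :
    AnalyticAt ℂ (cuspFunction w f) 0 :=
  analyticAt_cuspFunction_zero hw h.per h.mdiff h.bdd

theorem IsCuspFn.mul {w : ℝ} {f g : ℍ → ℂ} (hf : IsCuspFn w f) (hg : IsCuspFn w g) :
    IsCuspFn w (f * g) :=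
  ⟨fun z => by simpa using congrArg₂ (· * ·) (hf.per z) (hg.per z), hf.mdiff.mul hg.mdiff,
    hf.bdd.mul hg.bdd⟩

theorem IsCuspFn.pow {w : ℝ} {f : ℍ → ℂ} (hf : IsCuspFn w f) (n : ℕ) : IsCuspFn w (f ^ n) := by
  induction n with
  | zero =>
    rw [pow_zero]
    exact ⟨fun z => rfl, mdifferentiable_const, Filter.const_boundedAtFilter _ 1⟩
  | succ n ih => rw [pow_succ]; exact ih.mul hf

theorem IsCuspFn.cuspFunction_ne_top {w : ℝ} {f : ℍ → ℂ} (h : IsCuspFn w f) (hw : 0 < w)
    (hne : f ≠ 0) : analyticOrderAt (cuspFunction w f) 0 ≠ ⊤ := by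
  intro htop
  rw [analyticOrderAt_eq_top] at htop
  have hz : ∀ z ∈ Metric.ball (0 : ℂ) 1, cuspFunction w f z = 0 :=
    (differentiableOn_cuspFunction_ball hw h.per h.mdiff h.bdd).analyticOnNhd
      Metric.isOpen_ball |>.eqOn_zero_of_preconnected_of_eventuallyEq_zero
      (convex_ball _ _).isPreconnected (Metric.mem_ball_self one_pos) htop
  refine hne (funext fun τ => ?_)
  rw [← eq_cuspFunction τ hw.ne' h.per]
  exact hz _ (by simpa using Periodic.norm_qParam_lt_one hw τ.im_pos)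

theorem cuspFunction_mul' {w : ℝ} {f g : ℍ → ℂ} (hw : 0 < w) (hf : IsCuspFn w f)
    (hg : IsCuspFn w g) : cuspFunction w (f * g) = cuspFunction w f * cuspFunction w g :=
  UpperHalfPlane.cuspFunction_mul (hf.analyticAt hw).continuousAt (hg.analyticAt hw).continuousAt

theorem ordInf_mul {w : ℝ} {f g : ℍ → ℂ} (hw : 0 < w) (hf : IsCuspFn w f) (hg : IsCuspFn w g)
    (hf0 : f ≠ 0) (hg0 : g ≠ 0) : ordInf w (f * g) = ordInf w f + ordInf w g := by
  rw [ordInf, cuspFunction_mul' hw hf hg]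
  exact analyticOrderNatAt_mul (hf.analyticAt hw) (hg.analyticAt hw)
    (hf.cuspFunction_ne_top hw hf0) (hg.cuspFunction_ne_top hw hg0)

theorem pow_ne_zero_fun {f : ℍ → ℂ} (hf : f ≠ 0) (n : ℕ) : f ^ n ≠ 0 := by
  obtain ⟨z, hz⟩ := Function.ne_iff.mp hf
  exact Function.ne_iff.mpr ⟨z, pow_ne_zero n hz⟩

theorem ordInf_pow {w : ℝ} {f : ℍ → ℂ} (hw : 0 < w) (hf : IsCuspFn w f) (hf0 : f ≠ 0) (n : ℕ) :
    ordInf w (f ^ n) = n * ordInf w f := by
  induction n with
  | zero =>
    have h1 : ordInf w (f ^ 0) = ordInf w (f ^ 0) + ordInf w (f ^ 0) := by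
      conv_lhs => rw [show f ^ 0 = f ^ 0 * f ^ 0 by simp]
      exact ordInf_mul hw (hf.pow 0) (hf.pow 0) (pow_ne_zero_fun hf0 0) (pow_ne_zero_fun hf0 0)
    omega
  | succ n ih =>
    rw [pow_succ, ordInf_mul hw (hf.pow n) hf (pow_ne_zero_fun hf0 n) hf0, ih]
    ring

/-- A holomorphic root of a periodic function with order divisible by `n` at `i∞` is periodic. -/
theorem periodic_of_pow {w : ℝ} {F : ℍ → ℂ} {n : ℕ} (hw : 0 < w) (hn : n ≠ 0) (hF : MDiff F)
    (hne : F ≠ 0) (hG : IsCuspFn w (F ^ n)) (hdvd : n ∣ ordInf w (F ^ n)) :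
    ∀ z : ℍ, F (w +ᵥ z) = F z := by
  obtain ⟨m, hm⟩ := hdvd
  have hGne : F ^ n ≠ 0 := pow_ne_zero_fun hne n
  obtain ⟨g, hg, hg0, hev⟩ := (hG.analyticAt hw).analyticOrderAt_eq_natCast.mp
    (Nat.cast_analyticOrderNatAt (hG.cuspFunction_ne_top hw hGne)).symm
  rw [show analyticOrderNatAt (cuspFunction w (F ^ n)) 0 = n * m from hm] at hev
  obtain ⟨ε, hε, hball⟩ := Metric.eventually_nhds_iff.mp
    ((hev.and (hg.continuousAt.eventually_ne hg0)).and hg.eventually_analyticAt)
  obtain ⟨v, hv, hvn⟩ := exists_root_of_ne_zero_ball (c := 0) (R := ε)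
    (fun q hq => (hball (Metric.mem_ball.mp hq)).2.differentiableAt.differentiableWithinAt)
    (fun q hq => (hball (Metric.mem_ball.mp hq)).1.2) hn
  -- a half plane on which the parameter lies in the ball
  set M : ℝ := max (-(w * Real.log ε) / (2 * Real.pi)) 0 with hM
  have hq : ∀ z : ℂ, M < z.im → Periodic.qParam w z ∈ Metric.ball (0 : ℂ) ε := by
    intro z hz
    rw [mem_ball_zero_iff, Periodic.norm_qParam]
    have h1 : -(w * Real.log ε) / (2 * Real.pi) < z.im := lt_of_le_of_lt (le_max_left _ _) hz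
    rw [div_lt_iff₀ (by positivity)] at h1
    calc Real.exp (-2 * Real.pi * z.im / w) < Real.exp (Real.log ε) := by
          rw [Real.exp_lt_exp, div_lt_iff₀ hw]
          linarith
      _ = ε := Real.exp_log hε
  set U : Set ℂ := {z | M < z.im} with hU
  have hUo : IsOpen U := isOpen_lt continuous_const Complex.continuous_im
  have hUc : IsPreconnected U := (convex_halfSpace_im_gt M).isPreconnected
  have hUsub : U ⊆ uhpSet := fun z hz => show 0 < z.im from
    lt_of_le_of_lt (le_max_right _ _) (show M < z.im from hz)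
  set P : ℂ → ℂ := fun z => Periodic.qParam w z ^ m * v (Periodic.qParam w z) with hP
  have hPd : DifferentiableOn ℂ P U := fun z hz => by
    refine DifferentiableAt.differentiableWithinAt ?_
    exact ((Periodic.differentiable_qParam z).pow m).mul
      ((hv.differentiableAt (Metric.isOpen_ball.mem_nhds (hq z hz))).comp z
        (Periodic.differentiable_qParam z))
  have hpow : ∀ z ∈ U, P z ^ n = (F ∘ ofComplex) z ^ n := by
    intro z hz
    have h1 := (hball (Metric.mem_ball.mp (hq z hz))).1.1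
    have h2 := eq_cuspFunction ⟨z, hUsub hz⟩ hw.ne' hG.per
    simp only [] at h2
    rw [h2, sub_zero, smul_eq_mul] at h1
    rw [hP, mul_pow, hvn _ (hq z hz), ← pow_mul, mul_comm m n, ← h1,
      Function.comp_apply, ofComplex_apply_of_im_pos (hUsub hz)]
    rfl
  have hPne : ∃ z ∈ U, P z ≠ 0 := by
    have hz : ((M + 1 : ℝ) : ℂ) * Complex.I ∈ U := by simp [hU]
    refine ⟨_, hz, mul_ne_zero (pow_ne_zero _ (Periodic.qParam_ne_zero _)) fun h0 => ?_⟩
    exact (hball (Metric.mem_ball.mp (hq _ hz))).1.2 (by rw [← hvn _ (hq _ hz), h0, zero_pow hn])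
  obtain ⟨ζ, -, hζ⟩ := exists_eq_const_mul_of_pow_eq hUo hUc hPd
    ((differentiableOn_comp_ofComplex hF).mono hUsub) hn hpow hPne
  have hPper : ∀ z, P (z + w) = P z := by
    intro z
    have : Periodic.qParam w (z + w) = Periodic.qParam w z := by
      rw [Periodic.qParam, Periodic.qParam, Complex.exp_eq_exp_iff_exists_int]
      refine ⟨1, ?_⟩
      have hwC : (w : ℂ) ≠ 0 := ofReal_ne_zero.mpr hw.ne'
      field_simp
      push_cast
      ring
    simp [hP, this]
  -- identity theorem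
  have hshift : DifferentiableOn ℂ (fun z => (F ∘ ofComplex) (z + w)) uhpSet := by
    intro z hz
    refine DifferentiableAt.differentiableWithinAt ?_
    exact ((differentiableOn_comp_ofComplex hF).differentiableAt
      (isOpen_uhpSet.mem_nhds (by simpa [uhpSet] using! hz))).comp z (by fun_prop)
  have hI : ((M + 1 : ℝ) : ℂ) * Complex.I ∈ U := by simp [hU]
  have hall := (hshift.analyticOnNhd isOpen_uhpSet).eqOn_of_preconnected_of_eventuallyEq
    ((differentiableOn_comp_ofComplex hF).analyticOnNhd isOpen_uhpSet) isPreconnected_uhpSet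
    (hUsub hI) (by
      filter_upwards [hUo.mem_nhds hI] with z hz
      rw [hζ z hz, hζ (z + w) (by simpa [hU] using hz), hPper])
  intro z
  have h := hall z.im_pos
  simp only [Function.comp_apply, ofComplex_apply] at h
  rw [← h]
  congr 1
  rw [ofComplex_apply_of_im_pos (by simpa using z.im_pos)]
  ext
  simp [UpperHalfPlane.coe_vadd, add_comm]

theorem periodic_comp_ofComplex_of_vadd {w : ℝ} {F : ℍ → ℂ} (h : ∀ z : ℍ, F (w +ᵥ z) = F z) :
    Periodic (F ∘ ofComplex) (w : ℂ) := by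
  intro z
  by_cases hz : 0 < z.im
  · have : 0 < (z + w).im := by simpa using hz
    simp only [comp_apply, ofComplex_apply_of_im_pos this, ofComplex_apply_of_im_pos hz]
    rw [← h ⟨z, hz⟩]
    congr 1
    ext
    simp [UpperHalfPlane.coe_vadd, add_comm]
  · have : (z + w).im ≤ 0 := by simpa using hz
    simp [ofComplex_apply_of_im_nonpos this, ofComplex_apply_of_im_nonpos (le_of_not_gt hz)]

theorem slash_T_zpow_apply (f : ℍ → ℂ) (k : ℤ) (h : ℤ) (z : ℍ) :
    (f ∣[k] (ModularGroup.T ^ h)) z = f ((h : ℝ) +ᵥ z) := by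
  rw [ModularForm.SL_slash_apply, UpperHalfPlane.modular_T_zpow_smul]
  have h1 : UpperHalfPlane.denom ((ModularGroup.T ^ h : SL(2, ℤ)) : GL (Fin 2) ℝ) z = 1 := by
    simp [UpperHalfPlane.denom, Matrix.SpecialLinearGroup.coe_GL_coe_matrix,
      ModularGroup.coe_T_zpow, -map_zpow]
  rw [h1, one_zpow, mul_one]

end FermatLib.Modular.Kummer
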