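import Fermat.Agent.Modular.Kummer.OrdBridge
import Fermat.Agent.Modular.Kummer.KummerChar

/-!
The place dictionary of `ℂ(X₀(N))`.
-/

set_option autoImplicit false

noncomputable section

open Complex hiding I
open UpperHalfPlane hiding I
open CongruenceSubgroup ModularCurve AlgebraicCurve Function Filter
open scoped Topology MatrixGroups ModularForm Manifold

namespace FermatLib.Modular.Kummer

local notation "Δ" => ModularForm.discriminant

variable {N : ℕ} [NeZero N]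

theorem qExpL_eq_qL {F : ℍ → ℂ} (hF : IsCuspFn 1 F) : qExpL F = qL F :=
  qExpL_of_bounded (isCuspFn_one_mem_qMero hF) hF.bdd

/-- `Δ ^ j` as a form of weight `12 j`. -/
theorem isTwisted_discriminant_pow (N : ℕ) [NeZero N] (j : ℕ) :
    IsTwisted (1 : Gamma0 N →* ℂˣ) ((12 * j : ℕ) : ℤ) ((Δ : ℍ → ℂ) ^ j) := by
  have h : IsTwisted (1 : Gamma0 N →* ℂˣ) 12 (⇑CuspForm.discriminant) :=
    ⟨CuspForm.discriminant.holo', fun γ => by
      rw [MonoidHom.one_apply, Units.val_one, one_smul]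
      exact slash_SL_eq_self CuspForm.discriminant γ,
    fun A => by
      rw [slash_SL_eq_self CuspForm.discriminant A]
      exact ModularForm.discriminant_isZeroAtImInfty.isBoundedAtImInfty⟩
  rw [CuspForm.coe_discriminant] at h
  exact (h.pow_trivial j).cast_weight (by push_cast; ring)

/-- `P / Δ ^ j`. -/
def weakOf {j : ℕ} {P : ℍ → ℂ}
    (tP : IsTwisted (1 : Gamma0 N →* ℂˣ) ((12 * j : ℕ) : ℤ) P) : weakMod (Gamma0 N) :=
  ⟨fun τ => P τ / Δ τ ^ j, div_discriminant_pow_mem j tP.mdiff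
    (fun γ hγ => by
      have h := tP.slash ⟨γ, hγ⟩
      rwa [MonoidHom.one_apply, Units.val_one, one_smul] at h) tP.bdd⟩

omit [NeZero N] in
theorem qExpWeak_weakOf {j : ℕ} {P : ℍ → ℂ}
    (tP : IsTwisted (1 : Gamma0 N →* ℂˣ) ((12 * j : ℕ) : ℤ) P) :
    qExpWeak N (weakOf tP) * qExpDelta ^ j = qL P := by
  have h1 : ((weakOf tP : weakMod (Gamma0 N)) : ℍ → ℂ) * (Δ : ℍ → ℂ) ^ j = P :=
    funext fun τ => div_mul_cancel₀ _ (pow_ne_zero j (ModularForm.discriminant_ne_zero τ))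
  rw [qExpWeak_apply, qExpL_mul_pow (weakMod_Gamma0_le_qMero N (weakOf tP).2) (m := j)
    (by rw [h1]; exact (tP.isCuspFn_one fun _ => rfl).bdd), h1]
  rfl

/-- A ratio of forms of equal weight, rewritten with weight `12 j`. -/
theorem exists_twelve {k : ℤ} {A B : ModularForm (Gamma0 N) k} {f : cxField N} (hA : A ≠ 0)
    (hB : B ≠ 0) (h : (f : LaurentSeries ℂ) * qL ⇑B = qL ⇑A) :
    ∃ (j : ℕ) (P Q : ℍ → ℂ) (_ : IsTwisted (1 : Gamma0 N →* ℂˣ) ((12 * j : ℕ) : ℤ) P)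
      (_ : IsTwisted (1 : Gamma0 N →* ℂˣ) ((12 * j : ℕ) : ℤ) Q), P ≠ 0 ∧ Q ≠ 0 ∧
      (f : LaurentSeries ℂ) * qL Q = qL P ∧
      P = ⇑A * ⇑B ^ 5 ∧ Q = ⇑B * ⇑B ^ 5 ∧ ((12 * j : ℕ) : ℤ) = k + ((5 : ℕ) : ℤ) * k := by
  obtain ⟨i, hi⟩ := even_weight hB
  have hk : 0 ≤ k := by
    by_contra hk
    exact hB (ModularForm.isZero_of_neg_weight (not_le.mp hk) B)
  have tA := IsTwisted.of_modularForm A
  have tB := IsTwisted.of_modularForm B
  have hB5 := pow_ne_zero_fun (modularForm_coe_ne_zero hB) 5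
  obtain ⟨j, hj⟩ := Int.eq_ofNat_of_zero_le (show (0 : ℤ) ≤ i by omega)
  have hkj : k + ((5 : ℕ) : ℤ) * k = ((12 * j : ℕ) : ℤ) := by push_cast; omega
  refine ⟨j, _, _, (tA.mul_trivial (tB.pow_trivial 5)).cast_weight hkj,
    (tB.mul_trivial (tB.pow_trivial 5)).cast_weight hkj,
    mdiff_mul_ne_zero tA.mdiff (tB.pow_trivial 5).mdiff (modularForm_coe_ne_zero hA) hB5,
    mdiff_mul_ne_zero tB.mdiff (tB.pow_trivial 5).mdiff (modularForm_coe_ne_zero hB) hB5, ?_,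
    rfl, rfl, hkj.symm⟩
  rw [qL_mul (isCuspFn_one B) ((isCuspFn_one B).pow 5),
    qL_mul (isCuspFn_one A) ((isCuspFn_one B).pow 5), ← mul_assoc, h]

theorem ptPlace_ord_formula {k : ℤ} {A B : ModularForm (Gamma0 N) k} {f : cxField N} (hA : A ≠ 0)
    (hB : B ≠ 0) (h : (f : LaurentSeries ℂ) * qL ⇑B = qL ⇑A) (τ : ℍ) :
    (ptIndex N τ : ℤ) * (ptPlaceCx N τ).ord f = (ordH A τ : ℤ) - ordH B τ := by
  obtain ⟨j, P, Q, tP, tQ, hP0, hQ0, hPQ, hP, hQ, -⟩ := exists_twelve hA hB h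
  have hP' := qExpWeak_weakOf tP
  have hQ' := qExpWeak_weakOf tQ
  have hΔd : MDiff ((Δ : ℍ → ℂ) ^ j) := (isTwisted_discriminant_pow N j).mdiff
  have hf : f ≠ 0 := ne_zero_of_eq hA h
  have hmem : ∀ G : weakMod (Gamma0 N), qExpWeak N G ∈ modularFunctionFieldCx N := fun G =>
    qExpL_mem_modularFunctionFieldCx N G.2
  set g : modularFunctionFieldCx N := ⟨qExpWeak N (weakOf tP), hmem _⟩
  set q : modularFunctionFieldCx N := ⟨qExpWeak N (weakOf tQ), hmem _⟩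
  have hfq : f * q = g := Subtype.ext <| mul_right_cancel₀ (pow_ne_zero j qExpDelta_ne_zero)
    (show (f : LaurentSeries ℂ) * qExpWeak N (weakOf tQ) * qExpDelta ^ j = _ by
      rw [mul_assoc, hQ']; exact hPQ.trans hP'.symm)
  have hord : ∀ (R : ℍ → ℂ) (tR : IsTwisted (1 : Gamma0 N →* ℂˣ) ((12 * j : ℕ) : ℤ) R),
      R ≠ 0 → (⟨qExpWeak N (weakOf tR), hmem _⟩ : modularFunctionFieldCx N) ≠ 0 ∧
      (ptIndex N τ : ℤ) * (ptPlaceCx N τ).ord
        (⟨qExpWeak N (weakOf tR), hmem _⟩ : modularFunctionFieldCx N) = ordH R τ := by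
    intro R tR hR
    have hne : (⟨qExpWeak N (weakOf tR), hmem _⟩ : modularFunctionFieldCx N) ≠ 0 := fun h0 => by
      have h0' : qExpWeak N (weakOf tR) = 0 := congrArg Subtype.val h0
      have := qExpWeak_weakOf tR
      rw [h0', zero_mul] at this
      exact hR ((qL_eq_zero_iff (tR.isCuspFn_one fun _ => rfl)).mp this.symm)
    refine ⟨hne, ?_⟩
    have h1 := meromorphicOrderAt_ptPlace (RingHom.id ℂ) N τ ⟨jFun τ, rfl⟩ hne (weakOf tR)
      (coeffMap_id _)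
    have h2 : ((weakOf tR : weakMod (Gamma0 N)) : ℍ → ℂ) ∘ ofComplex
        = (R ∘ ofComplex) / (((Δ : ℍ → ℂ) ^ j) ∘ ofComplex) := rfl
    have hΔ0 : ((Δ : ℍ → ℂ) ^ j) ≠ 0 :=
      Function.ne_iff.mpr ⟨τ, pow_ne_zero j (ModularForm.discriminant_ne_zero τ)⟩
    have h3 : ordH ((Δ : ℍ → ℂ) ^ j) τ = 0 := by
      rw [ordH, analyticOrderNatAt, analyticOrderAt_eq_zero.mpr (Or.inr (by
        simp [ofComplex_apply, ModularForm.discriminant_ne_zero τ]))]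
      rfl
    rw [h2, meromorphicOrderAt_div (Kummer.analyticAt_comp_ofComplex tR.mdiff τ).meromorphicAt
      (Kummer.analyticAt_comp_ofComplex hΔd τ).meromorphicAt, meromorphicOrderAt_eq_ordH tR.mdiff hR,
      meromorphicOrderAt_eq_ordH hΔd hΔ0, h3] at h1
    simpa using! (WithTop.coe_inj.mp (by simpa using! h1.symm))
  obtain ⟨-, hg⟩ := hord P tP hP0
  obtain ⟨hq0, hq⟩ := hord Q tQ hQ0
  have h4 := (ptPlaceCx N τ).ord_mul hf hq0
  rw [hfq] at h4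
  have hP2 : ordH P τ = ordH A τ + 5 * ordH B τ := by
    rw [hP, ordH_mul (IsTwisted.of_modularForm A).mdiff ((isCuspFn_one B).pow 5).mdiff (modularForm_coe_ne_zero hA)
      (pow_ne_zero_fun (modularForm_coe_ne_zero hB) 5), ordH_pow (IsTwisted.of_modularForm B).mdiff]
  have hQ2 : ordH Q τ = ordH B τ + 5 * ordH B τ := by
    rw [hQ, ordH_mul (IsTwisted.of_modularForm B).mdiff ((isCuspFn_one B).pow 5).mdiff (modularForm_coe_ne_zero hB)
      (pow_ne_zero_fun (modularForm_coe_ne_zero hB) 5), ordH_pow (IsTwisted.of_modularForm B).mdiff]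
  have h5 : (ptIndex N τ : ℤ) * (ptPlaceCx N τ).ord g
      = (ptIndex N τ : ℤ) * (ptPlaceCx N τ).ord f + (ptIndex N τ : ℤ) * (ptPlaceCx N τ).ord q := by
    rw [h4]; ring
  rw [hg, hq, hP2, hQ2] at h5
  push_cast at h5
  linarith

theorem slash_weight_zero_div {j : ℕ} {P : ℍ → ℂ} (A : SL(2, ℤ)) (τ : ℍ) :
    P (A • τ) / Δ (A • τ) ^ j
      = (P ∣[((12 * j : ℕ) : ℤ)] A) τ / (((Δ : ℍ → ℂ) ^ j) ∣[((12 * j : ℕ) : ℤ)] A) τ := by
  rw [ModularForm.SL_slash_apply, ModularForm.SL_slash_apply, Pi.pow_apply,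
    mul_div_mul_right _ _ (zpow_ne_zero _ (UpperHalfPlane.denom_ne_zero _ _))]

/-- Width of the cusp `A ∞`. -/
def cuspW (N : ℕ) [NeZero N] (A : SL(2, ℤ)) : ℕ := cuspWidth N A⁻¹

theorem conj_T_mem_iff (A : SL(2, ℤ)) (h : ℤ) :
    A * ModularGroup.T ^ h * A⁻¹ ∈ Gamma0 N ↔ (cuspW N A : ℤ) ∣ h := by
  rw [cuspW, cuspWidth, ← T_zpow_smul_eq_self_iff_width_dvd, MulAction.Quotient.smul_coe,
    smul_eq_mul, eq_comm, QuotientGroup.eq, inv_inv, mul_assoc]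

theorem cuspW_pos (A : SL(2, ℤ)) : 0 < cuspW N A := cuspOrbitWidth_pos _

theorem cuspW_mem (A : SL(2, ℤ)) : A * ModularGroup.T ^ (cuspW N A : ℤ) * A⁻¹ ∈ Gamma0 N :=
  (conj_T_mem_iff A _).mpr dvd_rfl

theorem cuspPlace_ord_formula {k : ℤ} {A B : ModularForm (Gamma0 N) k} {f : cxField N} (hA : A ≠ 0)
    (hB : B ≠ 0) (h : (f : LaurentSeries ℂ) * qL ⇑B = qL ⇑A) (G : SL(2, ℤ)) :
    (cuspPlaceCx N G⁻¹).ord f = (ordInf (cuspW N G : ℝ) ((⇑A) ∣[k] G) : ℤ)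
      - ordInf (cuspW N G : ℝ) ((⇑B) ∣[k] G) := by
  obtain ⟨j, P, Q, tP, tQ, hP0, hQ0, hPQ, hP, hQ, hwt⟩ := exists_twelve hA hB h
  set w := cuspW N G with hw_def
  have hw : 0 < w := cuspW_pos G
  have hwR : (0 : ℝ) < (w : ℝ) := by exact_mod_cast hw
  have hf : f ≠ 0 := ne_zero_of_eq hA h
  have hmem : ∀ R : weakMod (Gamma0 N), qExpWeak N R ∈ modularFunctionFieldCx N := fun R =>
    qExpL_mem_modularFunctionFieldCx N R.2
  have tD := isTwisted_discriminant_pow N j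
  set dG : ℍ → ℂ := fun τ =>
    (((Δ : ℍ → ℂ) ^ j) ∣[((12 * j : ℕ) : ℤ)] G) (ModularForm.heckeDiagMatrix w • τ) with hdG
  have hcD : IsCuspFn 1 dG :=
    isCuspFn_one_comp_diag hw (tD.isCuspFn_slash (fun _ => rfl) G (cuspW_mem G))
  have hcD0 : dG ≠ 0 := Function.ne_iff.mpr ⟨UpperHalfPlane.I, by
    show (((Δ : ℍ → ℂ) ^ j) ∣[((12 * j : ℕ) : ℤ)] G)
      (ModularForm.heckeDiagMatrix w • UpperHalfPlane.I) ≠ 0
    rw [ModularForm.SL_slash_apply, Pi.pow_apply]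
    exact mul_ne_zero (pow_ne_zero j (ModularForm.discriminant_ne_zero _))
      (zpow_ne_zero _ (UpperHalfPlane.denom_ne_zero _ _))⟩
  -- expansions of `R / Δ ^ j` at the cusp
  have hexp : ∀ (R : ℍ → ℂ) (tR : IsTwisted (1 : Gamma0 N →* ℂˣ) ((12 * j : ℕ) : ℤ) R),
      cuspEval N G⁻¹ ⟨qExpWeak N (weakOf tR), hmem _⟩ * qL dG
        = qL (fun τ => (R ∣[((12 * j : ℕ) : ℤ)] G) (ModularForm.heckeDiagMatrix w • τ)) := by
    intro R tR
    have hcR : IsCuspFn 1 (fun τ => (R ∣[((12 * j : ℕ) : ℤ)] G)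
        (ModularForm.heckeDiagMatrix w • τ)) :=
      isCuspFn_one_comp_diag hw (tR.isCuspFn_slash (fun _ => rfl) G (cuspW_mem G))
    rw [cuspEval_qExpWeak, ← qExpL_eq_qL hcD, ← qExpL_eq_qL hcR,
      ← qExpL_mul (cuspFun_mem_qMero N G⁻¹ (weakOf tR).2) (isCuspFn_one_mem_qMero hcD)]
    congr 1
    funext τ
    show R ((G⁻¹)⁻¹ • (ModularForm.heckeDiagMatrix w • τ))
      / Δ ((G⁻¹)⁻¹ • (ModularForm.heckeDiagMatrix w • τ)) ^ j * dG τ = _
    rw [inv_inv, slash_weight_zero_div, div_mul_cancel₀]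
    rw [ModularForm.SL_slash_apply, Pi.pow_apply]
    exact mul_ne_zero (pow_ne_zero j (ModularForm.discriminant_ne_zero _))
      (zpow_ne_zero _ (UpperHalfPlane.denom_ne_zero _ _))
  have hP' := qExpWeak_weakOf tP
  have hQ' := qExpWeak_weakOf tQ
  have hfq : f * (⟨qExpWeak N (weakOf tQ), hmem _⟩ : modularFunctionFieldCx N)
      = ⟨qExpWeak N (weakOf tP), hmem _⟩ :=
    Subtype.ext <| mul_right_cancel₀ (pow_ne_zero j qExpDelta_ne_zero)
      (show (f : LaurentSeries ℂ) * qExpWeak N (weakOf tQ) * qExpDelta ^ j = _ by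
        rw [mul_assoc, hQ']; exact hPQ.trans hP'.symm)
  have h1 := hexp P tP
  rw [← hfq, map_mul, mul_assoc, hexp Q tQ] at h1
  have hordR : ∀ (R : ℍ → ℂ) (_ : IsTwisted (1 : Gamma0 N →* ℂˣ) ((12 * j : ℕ) : ℤ) R), R ≠ 0 →
      qL (fun τ => (R ∣[((12 * j : ℕ) : ℤ)] G) (ModularForm.heckeDiagMatrix w • τ)) ≠ 0 ∧
      (qL (fun τ => (R ∣[((12 * j : ℕ) : ℤ)] G) (ModularForm.heckeDiagMatrix w • τ))).order
        = (ordInf (w : ℝ) (R ∣[((12 * j : ℕ) : ℤ)] G) : ℤ) := by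
    intro R tR hR
    have hc := isCuspFn_one_comp_diag hw (tR.isCuspFn_slash (fun _ => rfl) G (cuspW_mem G))
    have hne : (fun τ => (R ∣[((12 * j : ℕ) : ℤ)] G) (ModularForm.heckeDiagMatrix w • τ)) ≠ 0 := by
      obtain ⟨z, hz⟩ := Function.ne_iff.mp (slash_ne_zero (k := ((12 * j : ℕ) : ℤ)) hR G)
      refine Function.ne_iff.mpr ⟨(ModularForm.heckeDiagMatrix w)⁻¹ • z, ?_⟩
      simpa [smul_inv_smul] using! hz
    refine ⟨fun h0 => hne ((qL_eq_zero_iff hc).mp h0), ?_⟩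
    rw [order_qL hc hne, ordInf_comp_diag hw]
  obtain ⟨hQne, hQord⟩ := hordR Q tQ hQ0
  obtain ⟨-, hPord⟩ := hordR P tP hP0
  have hce : (cuspEval N G⁻¹ f).order = (cuspPlaceCx N G⁻¹).ord f := by
    have := order_cuspEval (RingHom.id ℂ) N G⁻¹ hf
    rwa [baseToCx_id] at this
  have hfe : cuspEval N G⁻¹ f ≠ 0 := fun h0 => hf ((cuspEval N G⁻¹).injective (by rw [h0, map_zero]))
  rw [← h1, HahnSeries.order_mul hfe hQne, hce, hQord] at hPord
  have hc : ∀ C : ModularForm (Gamma0 N) k, IsCuspFn (w : ℝ) ((⇑C) ∣[k] G) := fun C =>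
    (IsTwisted.of_modularForm C).isCuspFn_slash (fun _ => rfl) G (cuspW_mem G)
  have hB5 := pow_ne_zero_fun (slash_ne_zero (k := k) (modularForm_coe_ne_zero hB) G) 5
  rw [hP, hQ, hwt, ModularForm.mul_slash_SL2, ModularForm.mul_slash_SL2, pow_slash_SL2,
    ordInf_mul hwR (hc A) ((hc B).pow 5) (slash_ne_zero (modularForm_coe_ne_zero hA) G) hB5,
    ordInf_mul hwR (hc B) ((hc B).pow 5) (slash_ne_zero (modularForm_coe_ne_zero hB) G) hB5] at hPord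
  push_cast at hPord
  linarith

omit [NeZero N] in
theorem ptIndex_spec (γ : Gamma0 N) (τ : ℍ) (hfix : (γ : SL(2, ℤ)) • τ = τ) :
    (denom (γ : SL(2, ℤ)) τ ^ (2 : ℤ)) ^ ptIndex N τ = 1 := by
  unfold ptIndex
  split_ifs with h
  · rcases h _ γ.2 hfix with h1 | h1 <;>
      simp [h1, UpperHalfPlane.denom, Matrix.SpecialLinearGroup.coe_GL_coe_matrix]
  · have hD := UpperHalfPlane.denom_ne_zero (γ : SL(2, ℤ)) τ
    have h4 : ModularForm.E₄ τ ≠ 0 → denom (γ : SL(2, ℤ)) (τ : ℂ) ^ (4 : ℤ) = 1 := fun hne => by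
      have h1 := slash_SL_apply_eq (slash_SL_eq_self ModularForm.E₄ (γ : SL(2, ℤ))) τ
      rw [hfix] at h1
      exact mul_right_cancel₀ hne (h1.symm.trans (one_mul _).symm)
    have h6 : ModularForm.E₆ τ ≠ 0 → denom (γ : SL(2, ℤ)) (τ : ℂ) ^ (6 : ℤ) = 1 := fun hne => by
      have h1 := slash_SL_apply_eq (slash_SL_eq_self ModularForm.E₆ (γ : SL(2, ℤ))) τ
      rw [hfix] at h1
      exact mul_right_cancel₀ hne (h1.symm.trans (one_mul _).symm)
    rw [← zpow_natCast, ← zpow_mul]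
    unfold jRamIndex
    split_ifs with h0 h1
    · exact h6 (E₆_ne_zero_of_E₄ (jFun_eq_zero_iff.mp h0))
    · exact h4 fun h40 => E₆_ne_zero_of_E₄ h40 (jFun_eq_1728_iff.mp h1)
    · have e4 := h4 fun h40 => h0 (jFun_eq_zero_iff.mpr h40)
      have e6 := h6 fun h60 => h1 (jFun_eq_1728_iff.mpr h60)
      rw [show (6 : ℤ) = 4 + 2 by norm_num, zpow_add₀ hD, e4, one_mul] at e6
      simpa using e6

theorem ptIndex_prim (τ : ℍ) : ∃ γ : Gamma0 N, (γ : SL(2, ℤ)) • τ = τ ∧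
    IsPrimitiveRoot (denom (γ : SL(2, ℤ)) τ ^ (2 : ℤ)) (ptIndex N τ) := by
  rcases eq_or_ne (ptIndex N τ) 1 with h | h
  · exact ⟨1, one_smul _ _, by simp [h]⟩
  · obtain ⟨γ, hγ, hfix, hprim⟩ := exists_elliptic_of_ptIndex_ne_one N τ h
    refine ⟨⟨γ, hγ⟩, hfix, ?_⟩
    have := hprim.inv
    rwa [← zpow_neg, neg_neg] at this

/-- The dictionary. -/
def cxDictionary (N : ℕ) [NeZero N] : KummerDictionary N where
  pt := ptPlaceCx N
  cusp A := cuspPlaceCx N A⁻¹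
  ram := ptIndex N
  width := cuspW N
  cover v := (ptPlace_or_cuspPlace (RingHom.id ℂ) N v).imp
    (fun ⟨τ, _, h⟩ => ⟨τ, h⟩) (fun ⟨g, h⟩ => ⟨g⁻¹, by rw [inv_inv]; exact h⟩)
  ram_pos := ptIndex_pos N
  width_pos := cuspW_pos
  width_mem := cuspW_mem
  width_dvd A h hA := (conj_T_mem_iff A h).mp hA
  ram_spec := ptIndex_spec
  ram_prim := ptIndex_prim
  exists_div f := by
    obtain ⟨m, g, h, hh, hx⟩ := exists_modularForm_div N f.2
    refine ⟨_, g, h, hh, ?_⟩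
    rw [hx]
    exact div_mul_cancel₀ _ (qL_ne_zero hh)
  div_mem k A B := div_qExpansion_mem_modularFunctionFieldCx N A B
  ord_pt k A B f hA hB h τ := ptPlace_ord_formula hA hB h τ
  ord_cusp k A B f hA hB h G := cuspPlace_ord_formula hA hB h G

instance (N : ℕ) [NeZero N] : HasPrincipalDivisors ℂ (cxField N) :=
  hasPrincipalDivisors_modularFunctionFieldOver (L := ℂ) N

end FermatLib.Modular.Kummer
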