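import Fermat.Agent.Modular.Kummer.Quotient
import Mathlib.RingTheory.LaurentSeries

/-!
Modular forms on `Γ₀(N)` as forms with trivial character; their Laurent `q`-expansions.
-/

set_option autoImplicit false

noncomputable section

open Complex hiding I
open UpperHalfPlane hiding I
open CongruenceSubgroup Filter Function
open scoped Topology MatrixGroups ModularForm Manifold

namespace FermatLib.Modular.Kummer

variable {N : ℕ} {k : ℤ} {χ χ' : Gamma0 N →* ℂˣ} {r r' : ℍ → ℂ} {k' : ℤ}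

theorem IsTwisted.of_modularForm [NeZero N] (P : ModularForm (Gamma0 N) k) :
    IsTwisted (1 : Gamma0 N →* ℂˣ) k ⇑P where
  mdiff := P.holo'
  slash γ := by
    rw [MonoidHom.one_apply, Units.val_one, one_smul, ModularForm.SL_slash]
    exact P.slash_action_eq' _ ⟨γ, γ.2, rfl⟩
  bdd A := ModularFormClass.bdd_at_infty_slash P A

/-- A form with trivial character, as a modular form. -/
def IsTwisted.toModularForm [NeZero N] (h : IsTwisted χ k r) (hχ : ∀ γ, χ γ = 1) :
    ModularForm (Gamma0 N) k where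
  toFun := r
  slash_action_eq' := by
    rintro _ ⟨γ, hγ, rfl⟩
    show r ∣[k] γ = r
    rw [h.slash ⟨γ, hγ⟩, hχ, Units.val_one, one_smul]
  holo' := h.mdiff
  bdd_at_cusps' {c} hc := by
    rw [Subgroup.IsArithmetic.isCusp_iff_isCusp_SL2Z] at hc
    rw [OnePoint.isBoundedAt_iff_forall_SL2Z hc]
    exact fun A _ => h.bdd A

@[simp]
theorem IsTwisted.coe_toModularForm [NeZero N] (h : IsTwisted χ k r) (hχ : ∀ γ, χ γ = 1) :
    ⇑(h.toModularForm hχ) = r := rfl

theorem IsTwisted.mul (h : IsTwisted χ k r) (h' : IsTwisted χ' k' r') :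
    IsTwisted (χ * χ') (k + k') (r * r') where
  mdiff := h.mdiff.mul h'.mdiff
  slash γ := by
    rw [ModularForm.mul_slash_SL2, h.slash, h'.slash, MonoidHom.mul_apply, Units.val_mul]
    funext z
    simp only [Pi.mul_apply, Pi.smul_apply, smul_eq_mul]
    ring
  bdd A := by
    rw [ModularForm.mul_slash_SL2]
    exact (h.bdd A).mul (h'.bdd A)

theorem IsTwisted.cast_weight (h : IsTwisted χ k r) (hk : k = k') : IsTwisted χ k' r := hk ▸ h

theorem IsTwisted.pow_trivial (h : IsTwisted (1 : Gamma0 N →* ℂˣ) k r) :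
    ∀ m : ℕ, IsTwisted (1 : Gamma0 N →* ℂˣ) ((m : ℤ) * k) (r ^ m)
  | 0 => by
    rw [pow_zero, Nat.cast_zero, zero_mul]
    exact ⟨mdifferentiable_const, fun γ => by
      rw [MonoidHom.one_apply, Units.val_one, one_smul]
      exact ModularForm.is_invariant_one _, fun A => by
      rw [ModularForm.is_invariant_one]; exact const_boundedAtFilter _ 1⟩
  | m + 1 => by
    rw [pow_succ, ← one_mul (1 : Gamma0 N →* ℂˣ)]
    exact ((h.pow_trivial m).mul h).cast_weight (by push_cast; ring)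

/-- Laurent `q`-expansion of a function bounded at `i∞`. -/
def qL (f : ℍ → ℂ) : LaurentSeries ℂ := HahnSeries.ofPowerSeries ℤ ℂ (qExpansion 1 f)

theorem IsTwisted.isCuspFn_slash (h : IsTwisted χ k r) (hχ : ∀ γ, χ γ = 1) (A : SL(2, ℤ))
    {w : ℕ} (hw : A * ModularGroup.T ^ (w : ℤ) * A⁻¹ ∈ Gamma0 N) :
    IsCuspFn (w : ℝ) (r ∣[k] A) where
  per := by
    refine periodic_comp_ofComplex_of_vadd fun z => ?_
    have h1 : (r ∣[k] A) ∣[k] (ModularGroup.T ^ (w : ℤ)) = r ∣[k] A := by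
      rw [← SlashAction.slash_mul, show A * ModularGroup.T ^ (w : ℤ)
        = A * ModularGroup.T ^ (w : ℤ) * A⁻¹ * A by group, SlashAction.slash_mul, h.slash ⟨_, hw⟩,
        hχ, Units.val_one, one_smul]
    have h2 := congrFun h1 z
    rw [slash_T_zpow_apply] at h2
    simpa using h2
  mdiff := mdifferentiable_slash h.mdiff k A
  bdd := h.bdd A

theorem IsTwisted.isCuspFn_one (h : IsTwisted χ k r) (hχ : ∀ γ, χ γ = 1) :
    IsCuspFn 1 r := by
  have hm : (1 : SL(2, ℤ)) * ModularGroup.T ^ ((1 : ℕ) : ℤ) * 1⁻¹ ∈ Gamma0 N := by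
    rw [one_mul, inv_one, mul_one, Gamma0_mem, ModularGroup.coe_T_zpow]
    simp
  simpa using h.isCuspFn_slash hχ 1 hm

theorem qL_mul {f g : ℍ → ℂ} (hf : IsCuspFn 1 f) (hg : IsCuspFn 1 g) :
    qL (f * g) = qL f * qL g := by
  rw [qL, UpperHalfPlane.qExpansion_mul (hf.analyticAt one_pos) (hg.analyticAt one_pos), map_mul]
  rfl

theorem qL_eq_zero_iff {f : ℍ → ℂ} (hf : IsCuspFn 1 f) : qL f = 0 ↔ f = 0 := by
  rw [qL, map_eq_zero_iff _ HahnSeries.ofPowerSeries_injective,
    UpperHalfPlane.qExpansion_eq_zero_iff one_pos hf.per hf.mdiff hf.bdd]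

theorem IsCuspFn.smul {w : ℝ} {f : ℍ → ℂ} (hf : IsCuspFn w f) (c : ℂ) : IsCuspFn w (c • f) :=
  ⟨fun z => by simpa using congrArg (c * ·) (hf.per z), hf.mdiff.const_smul c, hf.bdd.smul c⟩

end FermatLib.Modular.Kummer
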