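import Fermat.Agent.Modular.Kummer.Forms
import Fermat.Agent.Modular.PlacePoints
import Fermat.Agent.Modular.PlaceCusps

/-!
Orders of ratios of modular forms at the places of `ℂ(X₀(N))`.
-/

set_option autoImplicit false

noncomputable section

open Complex hiding I
open UpperHalfPlane hiding I
open CongruenceSubgroup ModularCurve AlgebraicCurve Function Filter
open scoped Topology MatrixGroups ModularForm Manifold

namespace FermatLib.Modular.Kummer

local notation "Δ" => ModularForm.discriminant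

variable {w : ℕ} {F : ℍ → ℂ}

theorem isCuspFn_one_comp_diag (hw : 0 < w) (hF : IsCuspFn (w : ℝ) F) :
    IsCuspFn 1 (fun τ => F (ModularForm.heckeDiagMatrix w • τ)) where
  per := by
    refine Kummer.periodic_comp_ofComplex_of_vadd fun z => ?_
    have h := hF.per (ModularForm.heckeDiagMatrix w • z : ℍ)
    simp only [comp_apply, ofComplex_apply] at h
    rw [← h]
    congr 1
    have hp : 0 < (((ModularForm.heckeDiagMatrix w • z : ℍ) : ℂ) + ((w : ℝ) : ℂ)).im := by
      simpa using (ModularForm.heckeDiagMatrix w • z : ℍ).im_pos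
    rw [ofComplex_apply_of_im_pos hp]
    refine UpperHalfPlane.ext ?_
    simp only [ModularForm.coe_heckeDiagMatrix_smul hw.ne', UpperHalfPlane.coe_vadd]
    push_cast
    ring
  mdiff := by
    intro z
    exact (hF.mdiff _).comp z (UpperHalfPlane.mdifferentiable_smul
      (ModularForm.det_heckeDiagMatrix_pos w) z)
  bdd := by
    have h := hF.bdd
    rw [UpperHalfPlane.isBoundedAtImInfty_iff] at h ⊢
    obtain ⟨M, A, hA⟩ := h
    refine ⟨M, max A 0, fun z hz => hA _ ?_⟩
    have : (ModularForm.heckeDiagMatrix w • z : ℍ).im = w * z.im := by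
      show ((ModularForm.heckeDiagMatrix w • z : ℍ) : ℂ).im = _
      rw [ModularForm.coe_heckeDiagMatrix_smul hw.ne']
      simp
    rw [this]
    have h1 : (1 : ℝ) ≤ w := by exact_mod_cast hw
    nlinarith [le_max_left A 0, le_max_right A 0, z.im_pos]

/-- Scaling by `w` turns the parameter of width `w` into `exp (2πiτ)`. -/
theorem cuspFunction_comp_diag_eventuallyEq (hw : 0 < w) :
    cuspFunction 1 (fun τ => F (ModularForm.heckeDiagMatrix w • τ)) =ᶠ[𝓝 0]
      cuspFunction (w : ℝ) F := by
  have hw' : (0 : ℝ) < w := by exact_mod_cast hw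
  set G := fun τ => F (ModularForm.heckeDiagMatrix w • τ) with hG
  have hne : ∀ᶠ q in 𝓝[≠] (0 : ℂ), cuspFunction 1 G q = cuspFunction (w : ℝ) F q := by
    filter_upwards [self_mem_nhdsWithin,
      mem_nhdsWithin_of_mem_nhds (Metric.ball_mem_nhds (0 : ℂ) one_pos)] with q hq hq1
    rw [cuspFunction, cuspFunction, Periodic.cuspFunction_eq_of_nonzero _ _ hq,
      Periodic.cuspFunction_eq_of_nonzero _ _ hq]
    have hmul : Periodic.invQParam (w : ℝ) q = (w : ℂ) * Periodic.invQParam 1 q := by
      simp only [Periodic.invQParam, ofReal_natCast, ofReal_one]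
      ring
    rw [hmul]
    have hz := Periodic.im_invQParam_pos_of_norm_lt_one one_pos (by simpa using hq1) hq
    have : 0 < ((w : ℂ) * Periodic.invQParam 1 q).im := by simpa using! mul_pos hw' hz
    simp only [hG, comp_apply, ofComplex_apply_of_im_pos hz, ofComplex_apply_of_im_pos this]
    congr 1
    exact UpperHalfPlane.ext (ModularForm.coe_heckeDiagMatrix_smul hw.ne' _)
  refine eventually_nhdsWithin_iff.mp hne |>.mono fun q hq => ?_
  rcases eq_or_ne q 0 with rfl | h0
  · rw [cuspFunction, cuspFunction, Periodic.cuspFunction_zero_eq_limUnder_nhds_ne,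
      Periodic.cuspFunction_zero_eq_limUnder_nhds_ne]
    exact congrArg lim (Filter.map_congr hne)
  · exact hq h0

theorem order_qL (hF : IsCuspFn 1 F) (h0 : F ≠ 0) : (qL F).order = (ordInf 1 F : ℤ) := by
  have hord : analyticOrderAt (cuspFunction 1 F) 0 = (ordInf 1 F : ℕ) :=
    (Nat.cast_analyticOrderNatAt (hF.cuspFunction_ne_top one_pos h0)).symm
  obtain ⟨hz, hnz⟩ :=
    (analyticOrderAt_eq_nat_iff_iteratedDeriv_eq_zero (hF.analyticAt one_pos)).mp hord
  have hc : (qL F).coeff (ordInf 1 F : ℤ) ≠ 0 := by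
    rw [qL, HahnSeries.ofPowerSeries_apply_coeff, qExpansion_coeff]
    exact mul_ne_zero (inv_ne_zero (Nat.cast_ne_zero.mpr (Nat.factorial_ne_zero _))) hnz
  refine le_antisymm (HahnSeries.order_le_of_coeff_ne_zero hc) ?_
  refine le_of_not_gt fun hlt => ?_
  have hne : qL F ≠ 0 := fun h => h0 ((qL_eq_zero_iff hF).mp h)
  have h1 : (qL F).coeff (qL F).order ≠ 0 := mt HahnSeries.coeff_order_eq_zero.mp hne
  rcases lt_or_ge (qL F).order 0 with h2 | h2
  · exact h1 (ModularCurve.ofPowerSeries_coeff_of_neg _ h2)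
  · obtain ⟨m, hm⟩ := Int.eq_ofNat_of_zero_le h2
    rw [hm] at hlt h1
    rw [qL, HahnSeries.ofPowerSeries_apply_coeff, qExpansion_coeff, hz m (by exact_mod_cast hlt),
      mul_zero] at h1
    exact h1 rfl

theorem isCuspFn_one_mem_qMero (hF : IsCuspFn 1 F) : F ∈ qMero := by
  refine mem_qMero.mpr ⟨fun τ => ?_, hF.mdiff, 0, by simpa using hF.bdd⟩
  have h := hF.per (τ : ℂ)
  simp only [comp_apply, ofComplex_apply] at h
  rw [← h]
  congr 1
  rw [ofComplex_apply_of_im_pos (by simpa using τ.im_pos)]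
  refine UpperHalfPlane.ext ?_
  simp [UpperHalfPlane.coe_vadd, add_comm]

theorem ordInf_comp_diag (hw : 0 < w) :
    ordInf 1 (fun τ => F (ModularForm.heckeDiagMatrix w • τ)) = ordInf (w : ℝ) F := by
  rw [ordInf, ordInf, analyticOrderNatAt, analyticOrderNatAt,
    analyticOrderAt_congr (cuspFunction_comp_diag_eventuallyEq hw)]

theorem meromorphicOrderAt_eq_ordH {F : ℍ → ℂ} (hF : MDiff F) (h0 : F ≠ 0) (τ : ℍ) :
    meromorphicOrderAt (F ∘ ofComplex) (τ : ℂ) = (((ordH F τ : ℕ) : ℤ) : WithTop ℤ) := by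
  rw [(Kummer.analyticAt_comp_ofComplex hF τ).meromorphicOrderAt_eq,
    ← Nat.cast_analyticOrderNatAt (analyticOrderAt_ne_top_of_ne_zero hF h0 τ)]
  rfl

end FermatLib.Modular.Kummer
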