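import Fermat.Agent.Modular.Kummer.Cusp
import Mathlib.NumberTheory.ModularForms.NormTrace
import Mathlib.NumberTheory.ModularForms.CongruenceSubgroups

/-!
Quotients of holomorphic functions and forms with larger orders of vanishing.
-/

set_option autoImplicit false

noncomputable section

open Complex hiding I
open UpperHalfPlane hiding I
open CongruenceSubgroup Filter Function
open scoped Topology MatrixGroups ModularForm Manifold

namespace FermatLib.Modular.Kummer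

variable {N : ℕ}

theorem exists_local_quotient {P Q : ℍ → ℂ} (hP : MDiff P) (hQ : MDiff Q) (hP0 : P ≠ 0)
    (hQ0 : Q ≠ 0) (τ : ℍ) (hle : ordH Q τ ≤ ordH P τ) :
    ∃ u : ℂ → ℂ, AnalyticAt ℂ u τ ∧
      ∀ᶠ z in 𝓝 (τ : ℂ), (P ∘ ofComplex) z = u z * (Q ∘ ofComplex) z ∧
        (z ≠ τ → (Q ∘ ofComplex) z ≠ 0) := by
  obtain ⟨p, hp, -, hPe⟩ := (analyticAt_comp_ofComplex hP τ).analyticOrderAt_eq_natCast.mp
    (Nat.cast_analyticOrderNatAt (analyticOrderAt_ne_top_of_ne_zero hP hP0 τ)).symm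
  obtain ⟨q, hq, hq0, hQe⟩ := (analyticAt_comp_ofComplex hQ τ).analyticOrderAt_eq_natCast.mp
    (Nat.cast_analyticOrderNatAt (analyticOrderAt_ne_top_of_ne_zero hQ hQ0 τ)).symm
  refine ⟨fun z => (z - τ) ^ (ordH P τ - ordH Q τ) * (p z / q z), ?_, ?_⟩
  · exact ((analyticAt_id.sub analyticAt_const).pow _).mul (hp.div hq hq0)
  filter_upwards [hPe, hQe, hq.continuousAt.eventually_ne hq0] with z h1 h2 h3
  refine ⟨?_, fun hne => ?_⟩
  · rw [h1, h2, smul_eq_mul, smul_eq_mul]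
    show _ = _ * ((z - τ) ^ ordH Q τ * q z)
    have h4 : (z - (τ : ℂ)) ^ analyticOrderNatAt (P ∘ ofComplex) τ
        = (z - τ) ^ (ordH P τ - ordH Q τ) * (z - τ) ^ ordH Q τ := by
      rw [← pow_add, Nat.sub_add_cancel hle]
      rfl
    rw [h4]
    field_simp
  · rw [h2, smul_eq_mul]
    exact mul_ne_zero (pow_ne_zero _ (sub_ne_zero.mpr hne)) h3

/-- Division of holomorphic functions on `ℍ`. -/
theorem exists_mdiff_quotient {P Q : ℍ → ℂ} (hP : MDiff P) (hQ : MDiff Q) (hP0 : P ≠ 0)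
    (hQ0 : Q ≠ 0) (hle : ∀ τ, ordH Q τ ≤ ordH P τ) : ∃ u : ℍ → ℂ, MDiff u ∧ P = u * Q := by
  choose u hua hue using fun τ => exists_local_quotient hP hQ hP0 hQ0 τ (hle τ)
  refine ⟨fun τ => u τ τ, fun τ => ?_, funext fun τ => ?_⟩
  · refine UpperHalfPlane.mdifferentiableAt_iff.mpr ?_
    refine (hua τ).differentiableAt.congr_of_eventuallyEq ?_
    filter_upwards [hue τ, isOpen_uhpSet.mem_nhds τ.im_pos] with z hz hz'
    rw [Function.comp_apply, ofComplex_apply_of_im_pos hz']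
    rcases eq_or_ne z τ with hzτ | hne
    · have : (⟨z, hz'⟩ : ℍ) = τ := UpperHalfPlane.ext hzτ
      rw [this, hzτ]
    · have h2 := (hue ⟨z, hz'⟩).self_of_nhds.1
      exact mul_right_cancel₀ (hz.2 hne) (h2.symm.trans hz.1)
  · simpa [ofComplex_apply] using (hue τ).self_of_nhds.1

theorem cuspFunction_eventually_ne_zero {w : ℝ} {f : ℍ → ℂ} (hw : 0 < w) (hf : IsCuspFn w f)
    (hne : f ≠ 0) : ∀ᶠ q in 𝓝[≠] (0 : ℂ), cuspFunction w f q ≠ 0 :=
  ((hf.analyticAt hw).eventually_eq_zero_or_eventually_ne_zero).resolve_left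
    fun h => hf.cuspFunction_ne_top hw hne (analyticOrderAt_eq_top.mpr h)

/-- Boundedness of a quotient at `i∞`. -/
theorem isBoundedAtImInfty_of_mul_eq {w : ℝ} {P Q u : ℍ → ℂ} (hw : 0 < w) (hP : IsCuspFn w P)
    (hQ : IsCuspFn w Q) (hP0 : P ≠ 0) (hQ0 : Q ≠ 0) (hle : ordInf w Q ≤ ordInf w P)
    (h : P = u * Q) : IsBoundedAtImInfty u := by
  obtain ⟨p, hp, -, hPe⟩ := (hP.analyticAt hw).analyticOrderAt_eq_natCast.mp
    (Nat.cast_analyticOrderNatAt (hP.cuspFunction_ne_top hw hP0)).symm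
  obtain ⟨q, hq, hq0, hQe⟩ := (hQ.analyticAt hw).analyticOrderAt_eq_natCast.mp
    (Nat.cast_analyticOrderNatAt (hQ.cuspFunction_ne_top hw hQ0)).symm
  set v : ℂ → ℂ := fun z => z ^ (ordInf w P - ordInf w Q) * (p z / q z) with hv
  have hvc : ContinuousAt v 0 :=
    ((analyticAt_id.pow _).mul (hp.div hq hq0)).continuousAt
  have hev : ∀ᶠ z in 𝓝[≠] (0 : ℂ),
      cuspFunction w P z = v z * cuspFunction w Q z ∧ cuspFunction w Q z ≠ 0 := by
    filter_upwards [eventually_nhdsWithin_of_eventually_nhds hPe,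
      eventually_nhdsWithin_of_eventually_nhds hQe,
      eventually_nhdsWithin_of_eventually_nhds (hq.continuousAt.eventually_ne hq0),
      self_mem_nhdsWithin] with z h1 h2 h3 h4
    rw [h1, h2]
    simp only [sub_zero, smul_eq_mul]
    refine ⟨?_, mul_ne_zero (pow_ne_zero _ h4) h3⟩
    show _ = v z * (z ^ ordInf w Q * q z)
    have h5 : z ^ analyticOrderNatAt (cuspFunction w P) 0
        = z ^ (ordInf w P - ordInf w Q) * z ^ ordInf w Q := by
      rw [← pow_add, Nat.sub_add_cancel hle]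
      rfl
    rw [h5, hv]
    field_simp
  have hlim : Tendsto (fun τ : ℍ => Periodic.qParam w (τ : ℂ)) atImInfty (𝓝[≠] 0) :=
    (Periodic.qParam_tendsto hw).comp tendsto_coe_atImInfty
  have hu : u =ᶠ[atImInfty] fun τ => v (Periodic.qParam w (τ : ℂ)) := by
    filter_upwards [hlim.eventually hev] with τ hτ
    rw [eq_cuspFunction τ hw.ne' hP.per, eq_cuspFunction τ hw.ne' hQ.per] at hτ
    exact mul_right_cancel₀ hτ.2 ((congrFun h τ).symm.trans hτ.1)
  have hb : Tendsto u atImInfty (𝓝 (v 0)) :=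
    (hvc.tendsto.comp (hlim.mono_right nhdsWithin_le_nhds)).congr' hu.symm
  exact hb.isBigO_one ℝ

/-- A form of weight `k` whose orders dominate those of `Q` is a constant multiple of `Q`. -/
theorem exists_eq_smul_of_ord_le [NeZero N] {k : ℤ} {P Q : ℍ → ℂ} (hP : MDiff P) (hQ : MDiff Q)
    (hP0 : P ≠ 0) (hQ0 : Q ≠ 0)
    (hPinv : ∀ γ : Gamma0 N, P ∣[k] (γ : SL(2, ℤ)) = P)
    (hQinv : ∀ γ : Gamma0 N, Q ∣[k] (γ : SL(2, ℤ)) = Q)
    (hle : ∀ τ, ordH Q τ ≤ ordH P τ)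
    (hcusp : ∀ A : SL(2, ℤ), ∃ w : ℝ, 0 < w ∧ IsCuspFn w (P ∣[k] A) ∧ IsCuspFn w (Q ∣[k] A) ∧
      ordInf w (Q ∣[k] A) ≤ ordInf w (P ∣[k] A)) :
    ∃ c : ℂ, c ≠ 0 ∧ P = c • Q := by
  obtain ⟨u, hu, hPu⟩ := exists_mdiff_quotient hP hQ hP0 hQ0 hle
  have hslash : ∀ A : SL(2, ℤ), P ∣[k] A = u ∣[(0 : ℤ)] A * Q ∣[k] A := fun A => by
    rw [← ModularForm.mul_slash_SL2, zero_add, ← hPu]
  have hinv : ∀ γ : Gamma0 N, u ∣[(0 : ℤ)] (γ : SL(2, ℤ)) = u := by
    intro γ
    have h1 := hslash γ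
    rw [hPinv, hQinv] at h1
    obtain ⟨z, hz⟩ := Function.ne_iff.mp hQ0
    have hev : ∀ᶠ x in 𝓝 (z : ℂ), (Q ∘ ofComplex) x ≠ 0 :=
      (analyticAt_comp_ofComplex hQ z).continuousAt.eventually_ne
        (by simpa [ofComplex_apply] using hz)
    have heq := ((differentiableOn_comp_ofComplex (mdifferentiable_slash hu 0 (γ : SL(2, ℤ)))
      ).analyticOnNhd isOpen_uhpSet).eqOn_of_preconnected_of_eventuallyEq
      ((differentiableOn_comp_ofComplex hu).analyticOnNhd isOpen_uhpSet) isPreconnected_uhpSet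
      z.im_pos (by
        filter_upwards [hev, isOpen_uhpSet.mem_nhds z.im_pos] with x hx hx'
        exact mul_right_cancel₀ hx ((congrFun h1 (ofComplex x)).symm.trans
          (congrFun hPu (ofComplex x))))
    funext τ
    simpa [ofComplex_apply] using heq τ.im_pos
  have hbdd : ∀ A : SL(2, ℤ), IsBoundedAtImInfty (u ∣[(0 : ℤ)] A) := by
    intro A
    obtain ⟨w, hw, hcP, hcQ, hord⟩ := hcusp A
    have hne : ∀ f : ℍ → ℂ, f ≠ 0 → f ∣[k] A ≠ 0 := fun f hf h0 => hf <| by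
      have h2 := congrArg (fun f => f ∣[k] A⁻¹) h0
      simpa only [← SlashAction.slash_mul, mul_inv_cancel, SlashAction.slash_one,
        SlashAction.zero_slash] using h2
    exact isBoundedAtImInfty_of_mul_eq hw hcP hcQ (hne P hP0) (hne Q hQ0) hord (hslash A)
  let U : ModularForm (Gamma0 N) 0 :=
    { toFun := u
      slash_action_eq' := by
        rintro _ ⟨γ, hγ, rfl⟩
        exact hinv ⟨γ, hγ⟩
      holo' := hu
      bdd_at_cusps' := fun {c} hc => by
        rw [Subgroup.IsArithmetic.isCusp_iff_isCusp_SL2Z] at hc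
        rw [OnePoint.isBoundedAt_iff_forall_SL2Z hc]
        exact fun A _ => hbdd A }
  obtain ⟨c, hc⟩ := ModularForm.eq_const_of_weight_zero U
  have hu' : u = Function.const ℍ c := hc
  have hPc : P = c • Q := by
    rw [hPu, hu']
    rfl
  refine ⟨c, fun h0 => hP0 ?_, hPc⟩
  rw [hPc, h0, zero_smul]

end FermatLib.Modular.Kummer
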